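import Fermat.Agent.Jac.Represent
import Fermat.Prelude.Def_AlgebraicGeometry_RelativePicardFunctor

/-!
# Morphisms are determined by their effect on affine points

`hom_ext_affine` compares morphisms over `k` on affine points, and `exists_hom_of_natural`
produces a morphism from a natural family of maps of affine points.
-/

set_option autoImplicit false

universe u

open CategoryTheory CategoryTheory.Limits AlgebraicGeometry NeronModelInfra
open scoped TensorProduct

namespace Fermat.Agent.Jac

variable {k : Type u} [CommRing k]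

/-- Composition of morphisms over the base. -/
abbrev compOver {V W X : Scheme.{u}} {v : V ⟶ Spec (CommRingCat.of k)}
    {w : W ⟶ Spec (CommRingCat.of k)} {x : X ⟶ Spec (CommRingCat.of k)}
    (a : SchemeHomOver v w) (b : SchemeHomOver w x) : SchemeHomOver v x :=
  RelPicard.postComp b a

/-- Morphisms of affine schemes over `k` come from maps of `k`-algebras. -/
theorem exists_specMapOver_eq {A A' : Type u} [CommRing A] [Algebra k A] [CommRing A']
    [Algebra k A'] (a : SchemeHomOver (specTo k A') (specTo k A)) :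
    ∃ φ : A →ₐ[k] A', specMapOver φ = a := by
  obtain ⟨f, hf⟩ := Spec.map_surjective a.1
  have h : CommRingCat.ofHom (algebraMap k A) ≫ f = CommRingCat.ofHom (algebraMap k A') := by
    apply Spec.map_injective
    rw [Spec.map_comp, hf]
    exact a.2
  refine ⟨⟨f.hom, fun r => ?_⟩, Subtype.ext hf⟩
  exact congr(($h).hom r)

/-- Every morphism from an affine scheme to the base comes from an algebra structure. -/
theorem exists_algebra_specTo {R : CommRingCat.{u}} (r : Spec R ⟶ Spec (CommRingCat.of k)) :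
    ∃ a : Algebra k R, letI := a; specTo k R = r := by
  obtain ⟨f, hf⟩ := Spec.map_surjective r
  exact ⟨f.hom.toAlgebra, hf⟩

theorem hom_ext_spec {T X : Scheme.{u}} (g g' : T ⟶ X)
    (h : ∀ (R : CommRingCat.{u}) (b : Spec R ⟶ T), b ≫ g = b ≫ g') : g = g' :=
  T.affineOpenCover.openCover.hom_ext _ _ fun (i : T.affineOpenCover.I₀) =>
    h (T.affineOpenCover.X i) (T.affineOpenCover.f i)

/-- Two morphisms over the base agreeing on all affine points are equal. -/
theorem hom_ext_affine {T X : Scheme.{u}} {t : T ⟶ Spec (CommRingCat.of k)}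
    {x : X ⟶ Spec (CommRingCat.of k)} (g g' : SchemeHomOver t x)
    (h : ∀ (A : Type u) [CommRing A] [Algebra k A] (a : SchemeHomOver (specTo k A) t),
      compOver a g = compOver a g') : g = g' := by
  refine Subtype.ext (hom_ext_spec _ _ fun R b => ?_)
  obtain ⟨inst, hb⟩ := exists_algebra_specTo (b ≫ t)
  exact congr(($(h R ⟨b, hb.symm⟩)).1)

/-- A natural family of maps on affine points is induced on each affine piece by a morphism. -/
theorem exists_local_hom {T X : Scheme.{u}} {t : T ⟶ Spec (CommRingCat.of k)}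
    {x : X ⟶ Spec (CommRingCat.of k)}
    (γ : ∀ (A : Type u) [CommRing A] [Algebra k A],
      SchemeHomOver (specTo k A) t → SchemeHomOver (specTo k A) x)
    (hγ : ∀ (A A' : Type u) [CommRing A] [Algebra k A] [CommRing A'] [Algebra k A']
      (φ : A →ₐ[k] A') (a : SchemeHomOver (specTo k A) t),
      γ A' (compOver (specMapOver φ) a) = compOver (specMapOver φ) (γ A a))
    {R : CommRingCat.{u}} (u₀ : Spec R ⟶ T) :
    ∃ f : Spec R ⟶ X, f ≫ x = u₀ ≫ t ∧ ∀ (A : Type u) [CommRing A] [Algebra k A]
      (a : SchemeHomOver (specTo k A) t) (b : Spec (CommRingCat.of A) ⟶ Spec R),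
      b ≫ u₀ = a.1 → (γ A a).1 = b ≫ f := by
  obtain ⟨inst, hinst⟩ := exists_algebra_specTo (u₀ ≫ t)
  let pt : SchemeHomOver (specTo k R) t := ⟨u₀, hinst.symm⟩
  refine ⟨(γ R pt).1, ((γ R pt).2).trans hinst, fun A _ _ a b hb => ?_⟩
  obtain ⟨φ, hφ⟩ := exists_specMapOver_eq (k := k) (A := R) (A' := A)
    ⟨b, by rw [hinst, ← Category.assoc, hb, a.2]⟩
  have ha : compOver (specMapOver φ) pt = a := Subtype.ext (by
    change (specMapOver φ).1 ≫ u₀ = a.1
    rw [hφ]; exact hb)
  have h1 := hγ R A φ pt
  rw [ha] at h1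
  rw [h1]
  change (specMapOver φ).1 ≫ _ = _
  rw [hφ]

/-- A natural assignment on affine points comes from a morphism. -/
theorem exists_hom_of_natural {T X : Scheme.{u}} {t : T ⟶ Spec (CommRingCat.of k)}
    {x : X ⟶ Spec (CommRingCat.of k)}
    (γ : ∀ (A : Type u) [CommRing A] [Algebra k A],
      SchemeHomOver (specTo k A) t → SchemeHomOver (specTo k A) x)
    (hγ : ∀ (A A' : Type u) [CommRing A] [Algebra k A] [CommRing A'] [Algebra k A']
      (φ : A →ₐ[k] A') (a : SchemeHomOver (specTo k A) t),
      γ A' (compOver (specMapOver φ) a) = compOver (specMapOver φ) (γ A a)) :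
    ∃ g : SchemeHomOver t x, ∀ (A : Type u) [CommRing A] [Algebra k A]
      (a : SchemeHomOver (specTo k A) t), γ A a = compOver a g := by
  let 𝒰 := T.affineOpenCover.openCover
  choose f hfx key using fun i : T.affineOpenCover.I₀ =>
    exists_local_hom γ hγ (T.affineOpenCover.f i)
  have hglue : ∀ i j : T.affineOpenCover.I₀,
      pullback.fst (T.affineOpenCover.f i) (T.affineOpenCover.f j) ≫ f i =
      pullback.snd (T.affineOpenCover.f i) (T.affineOpenCover.f j) ≫ f j := by
    intro i j
    refine hom_ext_spec _ _ fun R w => ?_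
    obtain ⟨ia, hia⟩ := exists_algebra_specTo
      (w ≫ pullback.fst (T.affineOpenCover.f i) (T.affineOpenCover.f j) ≫
        T.affineOpenCover.f i ≫ t)
    let a : SchemeHomOver (specTo k R) t :=
      ⟨w ≫ pullback.fst (T.affineOpenCover.f i) (T.affineOpenCover.f j) ≫ T.affineOpenCover.f i,
        by rw [hia]; simp only [Category.assoc]⟩
    have h1 := key i R a (w ≫ pullback.fst _ _) (Category.assoc _ _ _)
    have h2 := key j R a (w ≫ pullback.snd _ _) (by
      rw [Category.assoc, ← pullback.condition])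
    rw [← Category.assoc, ← h1, h2, Category.assoc]
  let g : T ⟶ X := 𝒰.glueMorphisms f hglue
  have hg : ∀ i, T.affineOpenCover.f i ≫ g = f i := fun i => 𝒰.ι_glueMorphisms f hglue i
  refine ⟨⟨g, 𝒰.hom_ext _ _ fun (i : T.affineOpenCover.I₀) => by
    change T.affineOpenCover.f i ≫ g ≫ x = T.affineOpenCover.f i ≫ t
    rw [← Category.assoc, hg]; exact hfx i⟩, ?_⟩
  intro A _ _ a
  apply Subtype.ext
  change (γ A a).1 = a.1 ≫ g
  refine Scheme.Cover.hom_ext (𝒰.pullback₁ a.1) _ _ fun (i : T.affineOpenCover.I₀) => ?_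
  change pullback.fst a.1 (T.affineOpenCover.f i) ≫ _ = pullback.fst a.1 (T.affineOpenCover.f i) ≫ _
  refine hom_ext_spec _ _ fun R w => ?_
  let p := pullback.fst a.1 (T.affineOpenCover.f i)
  let q := pullback.snd a.1 (T.affineOpenCover.f i)
  obtain ⟨ia, hia⟩ := exists_algebra_specTo (w ≫ p ≫ specTo k A)
  obtain ⟨φ, hφ⟩ := exists_specMapOver_eq (k := k) (A := A)
    ⟨w ≫ p, (Category.assoc _ _ _).trans hia.symm⟩
  have hpq : p ≫ a.1 = q ≫ T.affineOpenCover.f i := pullback.condition
  have h2 := key i R (compOver (specMapOver φ) a) (w ≫ q) (by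
    change _ = (specMapOver φ).1 ≫ a.1
    rw [hφ, Category.assoc, Category.assoc, hpq])
  rw [hγ A R φ a] at h2
  change (specMapOver φ).1 ≫ (γ A a).1 = _ at h2
  rw [hφ] at h2
  change w ≫ p ≫ (γ A a).1 = w ≫ p ≫ a.1 ≫ g
  rw [← Category.assoc, h2, ← Category.assoc p, hpq, Category.assoc, Category.assoc, hg]

end Fermat.Agent.Jac
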