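import Fermat.Agent.Jac.Cut

/-!
# From a representing scheme of classes to the relative Picard functor

`exists_representsRelSubPic` turns a scheme representing rigidified classes of degree zero into
a representation of the relative `Pic⁰` functor.
-/

set_option autoImplicit false

universe u

open CategoryTheory CategoryTheory.Limits AlgebraicGeometry AlgebraicGeometry.RelPicard
  NeronModelInfra GoodReductionJacobian
open scoped TensorProduct

namespace Fermat.Agent.Jac

variable {k : Type u} [Field k] {m : CurveModel k} {C : Scheme.{u}}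
  {c : C ⟶ Spec (CommRingCat.of k)}
  {ε : SchemeHomOver (𝟙 (Spec (CommRingCat.of k))) c} {G : m.Geo c ε}

/-- Pulling back in two steps. -/
theorem pullbackAlong_comp {V W X : Scheme.{u}} {v : V ⟶ Spec (CommRingCat.of k)}
    {w : W ⟶ Spec (CommRingCat.of k)} {x : X ⟶ Spec (CommRingCat.of k)}
    (M : RigidifiedLineBundle c ε x) (a : SchemeHomOver v w) (b : SchemeHomOver w x) :
    Nonempty (((M.pullbackAlong b).pullbackAlong a).L ≅ (M.pullbackAlong (compOver a b)).L) :=
  ⟨(Scheme.Modules.pullbackComp _ _).app M.L ≪≫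
    (Scheme.Modules.pullbackCongr (baseChangeSnd_comp c b a)).app M.L⟩

/-- Pulling back along the identity. -/
theorem pullbackAlong_id {X : Scheme.{u}} {x : X ⟶ Spec (CommRingCat.of k)}
    (M : RigidifiedLineBundle c ε x) :
    Nonempty ((M.pullbackAlong (⟨𝟙 X, Category.id_comp x⟩ : SchemeHomOver x x)).L ≅ M.L) :=
  ⟨(Scheme.Modules.pullbackCongr (baseChangeSnd_id c x)).app M.L ≪≫
    (Scheme.Modules.pullbackId _).app M.L⟩

/-- The class of a rigidified bundle over an affine scheme. -/
noncomputable def bundleCls (d : G.Dictionary) {A : Type u} [CommRing A] [Algebra k A]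
    (M : RigidifiedLineBundle c ε (specTo k A)) : Cl m A :=
  d.cls A M.L M.isInvertible

theorem bundleCls_eq_iff (d : G.Dictionary) {A : Type u} [CommRing A] [Algebra k A]
    (M M' : RigidifiedLineBundle c ε (specTo k A)) :
    bundleCls d M = bundleCls d M' ↔ Nonempty (M.L ≅ M'.L) :=
  d.cls_eq_iff A _ _ _ _

theorem bundleCls_pullback (d : G.Dictionary) {A A' : Type u} [CommRing A] [Algebra k A]
    [CommRing A'] [Algebra k A'] (φ : A →ₐ[k] A') (M : RigidifiedLineBundle c ε (specTo k A)) :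
    bundleCls d (M.pullbackAlong (specMapOver φ)) = Cl.map φ (bundleCls d M) :=
  d.cls_pullback A A' φ M.L M.isInvertible

theorem bundleCls_comp (d : G.Dictionary) {A : Type u} [CommRing A] [Algebra k A]
    {W X : Scheme.{u}} {w : W ⟶ Spec (CommRingCat.of k)} {x : X ⟶ Spec (CommRingCat.of k)}
    (M : RigidifiedLineBundle c ε x) (a : SchemeHomOver (specTo k A) w)
    (b : SchemeHomOver w x) :
    bundleCls d ((M.pullbackAlong b).pullbackAlong a) =
      bundleCls d (M.pullbackAlong (compOver a b)) :=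
  (bundleCls_eq_iff d _ _).2 (pullbackAlong_comp M a b)

theorem exists_bundle_of_rigTriv (d : G.Dictionary) {A : Type u} [CommRing A] [Algebra k A]
    (x : Cl m A) (hx : x.RigTriv) :
    ∃ M : RigidifiedLineBundle c ε (specTo k A), bundleCls d M = x := by
  obtain ⟨L, hL, rfl⟩ := d.cls_surjective A x
  exact ⟨⟨L, hL, (d.rigTriv_iff A L hL).1 hx⟩, rfl⟩

variable (d : G.Dictionary) (R : (picZeroFun m).RepScheme)

/-- The bundle `M` has the classes prescribed by the morphism `g`. -/
def Classifies {T : Scheme.{u}} {t : T ⟶ Spec (CommRingCat.of k)}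
    (M : RigidifiedLineBundle c ε t) (g : SchemeHomOver t R.toBase) : Prop :=
  ∀ (A : Type u) [CommRing A] [Algebra k A] (a : SchemeHomOver (specTo k A) t),
    bundleCls d (M.pullbackAlong a) = (R.pts A (compOver a g)).1

theorem Classifies.pullback {T T' : Scheme.{u}} {t : T ⟶ Spec (CommRingCat.of k)}
    {t' : T' ⟶ Spec (CommRingCat.of k)} {M : RigidifiedLineBundle c ε t}
    {g : SchemeHomOver t R.toBase} (h : Classifies d R M g) (b : SchemeHomOver t' t) :
    Classifies d R (M.pullbackAlong b) (compOver b g) := by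
  intro A _ _ a
  rw [bundleCls_comp d M a b, h A (compOver a b)]
  congr 2

theorem Classifies.unique_hom {T : Scheme.{u}} {t : T ⟶ Spec (CommRingCat.of k)}
    {M M' : RigidifiedLineBundle c ε t} {g g' : SchemeHomOver t R.toBase}
    (h : Classifies d R M g) (h' : Classifies d R M' g') (e : Nonempty (M.L ≅ M'.L)) :
    g = g' := by
  refine hom_ext_affine g g' fun A _ _ a => (R.pts A).injective (Subtype.ext ?_)
  rw [← h A a, ← h' A a]
  exact (bundleCls_eq_iff d _ _).2 (RigidifiedLineBundle.pullbackAlong_congr a e)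

theorem Classifies.iso {T : Scheme.{u}} {t : T ⟶ Spec (CommRingCat.of k)}
    {M M' : RigidifiedLineBundle c ε t} {g : SchemeHomOver t R.toBase}
    (h : Classifies d R M g) (h' : Classifies d R M' g) : Nonempty (M.L ≅ M'.L) := by
  refine rigidified_ext (constFunctions_of_geo G) t (fun U : T.affineOpens => (U : T.Opens))
    (iSup_affineOpens_eq_top T) M M' fun U => ?_
  -- transport from the spectrum of the ring of sections
  have hU : IsAffineOpen U.1 := U.2
  obtain ⟨inst, hi⟩ := exists_algebra_specTo (hU.fromSpec ≫ t)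
  let a : SchemeHomOver (specTo k Γ(T, U.1)) t := ⟨hU.fromSpec, hi.symm⟩
  let e : SchemeHomOver (U.1.ι ≫ t) (specTo k Γ(T, U.1)) :=
    ⟨hU.isoSpec.hom, by rw [hi, IsAffineOpen.isoSpec_hom_fromSpec_assoc]⟩
  have ha : compOver e a = opensOver t U.1 := Subtype.ext hU.isoSpec_hom_fromSpec
  obtain ⟨i⟩ := (bundleCls_eq_iff d _ _).1 ((h Γ(T, U.1) a).trans (h' Γ(T, U.1) a).symm)
  obtain ⟨j⟩ := pullbackAlong_comp M e a
  obtain ⟨j'⟩ := pullbackAlong_comp M' e a
  obtain ⟨l⟩ := RigidifiedLineBundle.pullbackAlong_congr e ⟨i⟩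
  rw [ha] at j j'
  exact ⟨j.symm ≪≫ l ≪≫ j'⟩

theorem exists_classifies_affine {A : Type u} [CommRing A] [Algebra k A]
    (g : SchemeHomOver (specTo k A) R.toBase) :
    ∃ M : RigidifiedLineBundle c ε (specTo k A), Classifies d R M g := by
  obtain ⟨M, hM⟩ := exists_bundle_of_rigTriv d _ (R.pts A g).2.1
  refine ⟨M, fun A' _ _ a => ?_⟩
  obtain ⟨φ, rfl⟩ := exists_specMapOver_eq a
  rw [bundleCls_pullback, hM]
  exact (congrArg Subtype.val (R.pts_natural A A' φ g)).symm

theorem exists_classifies {T : Scheme.{u}} {t : T ⟶ Spec (CommRingCat.of k)}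
    (g : SchemeHomOver t R.toBase) :
    ∃ M : RigidifiedLineBundle c ε t, Classifies d R M g := by
  have loc : ∀ U : T.affineOpens, ∃ M : RigidifiedLineBundle c ε (U.1.ι ≫ t),
      Classifies d R M (compOver (opensOver t U.1) g) := by
    intro U
    have hU : IsAffineOpen U.1 := U.2
    obtain ⟨inst, hi⟩ := exists_algebra_specTo (hU.fromSpec ≫ t)
    let a : SchemeHomOver (specTo k Γ(T, U.1)) t := ⟨hU.fromSpec, hi.symm⟩
    let e : SchemeHomOver (U.1.ι ≫ t) (specTo k Γ(T, U.1)) :=
      ⟨hU.isoSpec.hom, by rw [hi, IsAffineOpen.isoSpec_hom_fromSpec_assoc]⟩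
    obtain ⟨M, hM⟩ := exists_classifies_affine d R (compOver a g)
    refine ⟨M.pullbackAlong e, ?_⟩
    have : compOver e (compOver a g) = compOver (opensOver t U.1) g := Subtype.ext (by
      change hU.isoSpec.hom ≫ hU.fromSpec ≫ g.1 = U.1.ι ≫ g.1
      rw [IsAffineOpen.isoSpec_hom_fromSpec_assoc])
    exact this ▸ hM.pullback d R e
  choose M hM using loc
  obtain ⟨N, hN⟩ := rigidified_glue (constFunctions_of_geo G) t
    (fun U : T.affineOpens => (U : T.Opens)) (iSup_affineOpens_eq_top T) M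
    (fun U V W w a b hab => by
      refine ((hM U).pullback d R a).iso d R (?_ : Classifies d R _ _)
      have : compOver a (compOver (opensOver t U.1) g) =
          compOver b (compOver (opensOver t V.1) g) := Subtype.ext (by
        change a.1 ≫ U.1.ι ≫ g.1 = b.1 ≫ V.1.ι ≫ g.1
        rw [reassoc_of% hab])
      rw [this]
      exact (hM V).pullback d R b)
  refine ⟨N, fun A _ _ a => ?_⟩
  obtain ⟨M₀, hM₀⟩ := exists_classifies_affine d R (compOver a g)
  have hid := hM₀ A ⟨𝟙 _, Category.id_comp _⟩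
  have hcomp : compOver (⟨𝟙 _, Category.id_comp _⟩ : SchemeHomOver (specTo k A) (specTo k A))
      (compOver a g) = compOver a g := Subtype.ext (Category.id_comp _)
  rw [(bundleCls_eq_iff d _ _).2 (pullbackAlong_id M₀), hcomp] at hid
  rw [← hid, bundleCls_eq_iff]
  refine rigidified_ext (constFunctions_of_geo G) (specTo k A)
    (fun U : T.affineOpens => a.1 ⁻¹ᵁ (U : T.Opens)) ?_ _ _ fun U => ?_
  · rw [← Scheme.Hom.preimage_iSup, iSup_affineOpens_eq_top]; rfl
  let r : SchemeHomOver ((a.1 ⁻¹ᵁ U.1).ι ≫ specTo k A) (U.1.ι ≫ t) :=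
    ⟨a.1 ∣_ U.1, by rw [morphismRestrict_ι_assoc, a.2]⟩
  let o := opensOver (specTo k A) (a.1 ⁻¹ᵁ U.1)
  have hr : compOver o a = compOver r (opensOver t U.1) :=
    Subtype.ext (morphismRestrict_ι a.1 U.1).symm
  obtain ⟨j⟩ := pullbackAlong_comp N o a
  obtain ⟨j'⟩ := pullbackAlong_comp N r (opensOver t U.1)
  obtain ⟨l⟩ := RigidifiedLineBundle.pullbackAlong_congr r (hN U)
  rw [hr] at j
  have hgg : compOver r (compOver (opensOver t U.1) g) = compOver o (compOver a g) :=
    Subtype.ext (by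
      change (a.1 ∣_ U.1) ≫ U.1.ι ≫ g.1 = (a.1 ⁻¹ᵁ U.1).ι ≫ a.1 ≫ g.1
      rw [morphismRestrict_ι_assoc])
  have h1 := (hM U).pullback d R r
  rw [hgg] at h1
  obtain ⟨f⟩ := h1.iso d R (hM₀.pullback d R o)
  exact ⟨j ≪≫ j'.symm ≪≫ l ≪≫ f⟩

theorem exists_hom_classifies {T : Scheme.{u}} {t : T ⟶ Spec (CommRingCat.of k)}
    (M : RigidifiedLineBundle c ε t) (hM : FibrewiseAlgEquivZero M) :
    ∃ g : SchemeHomOver t R.toBase, Classifies d R M g := by
  have mem : ∀ (A : Type u) [CommRing A] [Algebra k A] (a : SchemeHomOver (specTo k A) t),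
      bundleCls d (M.pullbackAlong a) ∈ picZero m A := fun A _ _ a =>
    ⟨(d.rigTriv_iff A _ (M.pullbackAlong a).isInvertible).2 (M.pullbackAlong a).rigidified,
      degZero_of_fibrewiseAlgEquivZero d A _ (hM.pullback a)⟩
  obtain ⟨g, hg⟩ := exists_hom_of_natural
    (fun A _ _ a => (R.pts A).symm ⟨bundleCls d (M.pullbackAlong a), mem A a⟩)
    (fun A A' _ _ _ _ φ a => by
      apply (R.pts A').injective
      rw [Equiv.apply_symm_apply]
      refine (Subtype.ext ?_).trans (R.pts_natural A A' φ _).symm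
      rw [Equiv.apply_symm_apply]
      exact (bundleCls_comp d M (specMapOver φ) a).symm.trans (bundleCls_pullback d φ _))
  exact ⟨g, fun A _ _ a => by rw [← hg A a, Equiv.apply_symm_apply]⟩

include d in
/-- The relative Picard functor of degree zero is represented. -/
theorem exists_representsRelSubPic [Smooth R.toBase] {Y : Scheme.{u}}
    (y : Y ⟶ Spec (CommRingCat.of k)) [IsProper y] [GeometricallyIntegral y]
    (Φ : SchemeHomOver y R.toBase)
    (hΦ : ∀ (K : Type u) [Field K] [IsAlgClosed K] [Algebra k K]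
      (v : SchemeHomOver (specTo k K) R.toBase),
      ∃ q : SchemeHomOver (specTo k K) y, q.1 ≫ Φ.1 = v.1) :
    ∃ D : RelativePic0Designation k c, ∃ h : D.P = R.J,
      D.toBase = eqToHom h ≫ R.toBase ∧
      Nonempty (RepresentsRelSubPic c ε (algEquivZeroCut c ε) D) := by
  have hs : specTo k k = 𝟙 (Spec (CommRingCat.of k)) := by
    simp [specTo]
  let z := (R.pts k).symm 1
  let D : RelativePic0Designation k c :=
    ⟨R.J, R.toBase, z.1, z.2.trans hs⟩
  obtain ⟨P, hP⟩ := exists_classifies d R (⟨𝟙 _, Category.id_comp _⟩ :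
    SchemeHomOver R.toBase R.toBase)
  have hcut : FibrewiseAlgEquivZero P :=
    fibrewiseAlgEquivZero_of_degZero d R P (fun A _ _ a => (hP A a).trans (by
      congr 2)) y Φ hΦ
  have hpull : ∀ {T : Scheme.{u}} (t : T ⟶ Spec (CommRingCat.of k))
      (g : SchemeHomOver t R.toBase), Classifies d R (P.pullbackAlong g) g := by
    intro T t g
    have h1 := hP.pullback d R g
    rwa [show compOver g (⟨𝟙 _, Category.id_comp _⟩ : SchemeHomOver R.toBase R.toBase) = g from
      Subtype.ext (Category.comp_id _)] at h1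
  refine ⟨D, rfl, (Category.id_comp _).symm, ⟨⟨P, hcut, ?_, ?_⟩⟩⟩
  · intro T t M hM
    obtain ⟨g, hg⟩ := exists_hom_classifies d R M hM
    exact ⟨g, (hpull t g).iso d R hg, fun g' hg' => (hpull t g').unique_hom d R hg hg'⟩
  · refine (hpull (𝟙 _) ⟨D.zeroSection, D.zeroSection_toBase⟩).iso d R fun A _ _ a => ?_
    obtain ⟨φ, hφ⟩ := exists_specMapOver_eq (k := k) (A := k) (A' := A)
      ⟨a.1, by rw [hs]; exact a.2⟩
    have h1 : bundleCls d ((RigidifiedLineBundle.unit (c := c) (ε := ε) (𝟙 _)).pullbackAlong a) =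
        1 :=
      ((d.cls_eq_iff A _ _ _ _).2 ⟨Scheme.Modules.pullbackUnitIso _⟩).trans (d.cls_unit A)
    have h2 : compOver a (⟨D.zeroSection, D.zeroSection_toBase⟩ :
        SchemeHomOver (𝟙 (Spec (CommRingCat.of k))) R.toBase) = compOver (specMapOver φ) z :=
      Subtype.ext (congrArg (· ≫ z.1) (congrArg Subtype.val hφ).symm)
    rw [h1, h2]
    change _ = (R.pts A ⟨(specMapOver φ).1 ≫ z.1, _⟩).1
    rw [R.pts_natural k A φ z, Equiv.apply_symm_apply, map_one]
    rfl

end Fermat.Agent.Jac
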