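import Fermat.Agent.Jac.Chart.Ring
import Fermat.Agent.Jac.Chart.Smooth
import Fermat.Agent.Jac.Chart.TupleData
import Fermat.Agent.Jac.Chart.TupleMap

/-!
# The affine chart of the functor of rigidified classes of degree zero

`exists_chart` puts together the setup, frames, tuples and the representing algebra.
-/

set_option autoImplicit false

universe u

open scoped TensorProduct

namespace Fermat.Agent.Jac

variable {k : Type u} [Field k] [IsAlgClosed k] {m : CurveModel k}

omit [IsAlgClosed k] in
theorem Cl.exists_away_acyclic_finset {A : Type u} [CommRing A] [Algebra k A] {ι : Type}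
    [Finite ι] (x : ι → Cl m A) {K : Type u} [Field K] [Algebra k K] (φ : A →ₐ[k] K)
    (h : ∀ i, (Cl.map φ (x i)).Acyclic) :
    ∃ f : A, φ f ≠ 0 ∧
      ∀ i, (Cl.map (IsScalarTower.toAlgHom k A (Localization.Away f)) (x i)).Acyclic := by
  classical
  cases nonempty_fintype ι
  choose g hg hac using fun i => Cl.exists_away_acyclic (x i) K φ (h i)
  refine ⟨∏ i, g i, by rw [map_prod]; exact Finset.prod_ne_zero_iff.2 fun i _ => hg i, fun i => ?_⟩
  let P : Type u := Localization.Away (∏ i, g i)
  have hu : IsUnit (algebraMap A P (g i)) :=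
    isUnit_of_dvd_unit (map_dvd _ (Finset.dvd_prod_of_mem g (Finset.mem_univ i)))
      (IsLocalization.Away.algebraMap_isUnit (∏ i, g i))
  let r : Localization.Away (g i) →+* P :=
    IsLocalization.Away.lift (g := algebraMap A P) (g i) hu
  have hr : ∀ a, r (algebraMap A (Localization.Away (g i)) a) = algebraMap A P a := fun a =>
    IsLocalization.Away.lift_eq (g i) hu a
  let ψ : Localization.Away (g i) →ₐ[k] P :=
    { toRingHom := r
      commutes' := fun c => by
        show r (algebraMap k (Localization.Away (g i)) c) = algebraMap k P c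
        rw [IsScalarTower.algebraMap_apply k A (Localization.Away (g i)), hr,
          ← IsScalarTower.algebraMap_apply k A P] }
  have h2 := (hac i).map ψ
  rwa [Cl.map_map, show ψ.comp (IsScalarTower.toAlgHom k A (Localization.Away (g i))) =
    IsScalarTower.toAlgHom k A P from AlgHom.ext hr] at h2

namespace ChartSetup

variable (S : ChartSetup m) {A : Type u} [CommRing A] [Algebra k A]

/-- The class of line data, twisted back. -/
noncomputable def untwist (G : LineData m A) : Cl m A := Cl.mk G * (Cl.const A S.N)⁻¹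

variable {S}

omit [IsAlgClosed k] in
theorem untwist_map {A' : Type u} [CommRing A'] [Algebra k A'] {φ : A →ₐ[k] A'} {G : LineData m A}
    {G' : LineData m A'} (h : G.IsBaseChangeData φ G') :
    Cl.map φ (S.untwist G) = S.untwist G' := by
  rw [untwist, map_mul, map_inv, Cl.map_const, Cl.map_mk φ h, untwist]

theorem map_untwist {A' : Type u} [CommRing A'] [Algebra k A'] (φ : A →ₐ[k] A')
    {G : LineData m A} (fr : G.Frame S.q) :
    ∃ (G' : LineData m A') (fr' : G'.Frame S.q),
      fr'.tuple = fr.tuple.map φ ∧ Cl.map φ (S.untwist G) = S.untwist G' := by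
  obtain ⟨G', fr', hfr'⟩ := (fr.tuple.map φ).exists_frame
  exact ⟨G', fr', hfr', untwist_map (fr.isBaseChangeData φ fr' hfr')⟩

theorem mem_untwist {G : LineData m A} (fr : G.Frame S.q) : S.Mem (S.untwist G) := fun j =>
  Cl.acyclic_of_fibres _ fun K _ _ _ φ => by
    obtain ⟨G', fr', -, h⟩ := map_untwist φ fr
    rw [map_mul, Cl.map_const, h]
    exact mem_of_frame (by rw [untwist, inv_mul_cancel_right]) fr' j

theorem untwist_mem_picZero {G : LineData m A} (fr : G.Frame S.q) :
    S.untwist G ∈ picZero m A := by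
  refine ⟨?_, fun K _ _ _ φ => ((mem_untwist fr).map φ).euler_eq⟩
  rcases isEmpty_or_nonempty (Fin m.deg) with hd | hd
  · have : Subsingleton G.M1 := fr.bij1.surjective.subsingleton
    have : Subsingleton (m.R1 A) := ⟨fun a b => FaithfulSMul.eq_of_smul_eq_smul
      (α := G.M1) fun y => Subsingleton.elim _ _⟩
    have : Subsingleton A := (Point.epsA_surjective (m := m) (A := A)).subsingleton
    exact Cl.rigTriv_mul ((Cl.rigTriv_mk G).2 ⟨fr.l, fun a => ⟨0, Subsingleton.elim _ _⟩⟩)
      (Cl.rigTriv_inv ((Cl.rigTriv_of_field S.N).map _))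
  · obtain ⟨i⟩ := hd
    refine Cl.rigTriv_mul ((Cl.rigTriv_mk G).2 ⟨fr.l, fun a => ⟨a • fr.e1 i, ?_⟩⟩)
      (Cl.rigTriv_inv ((Cl.rigTriv_of_field S.N).map _))
    rw [fr.l_smul, fr.l_e, mul_one]

theorem exists_setup (m : CurveModel k) : Nonempty (ChartSetup m) := by
  obtain ⟨N0, hN0⟩ := Cl.exists_euler_eq_zero (k := k) (m := m)
  obtain ⟨q, hq, -⟩ := m.exists_points m.deg
  exact ⟨⟨N0, hN0, q, hq⟩⟩

theorem Mem.cover {K : Type u} [Field K] [IsAlgClosed K] [Algebra k K] (S : ChartSetup m)
    (x : picZero m K) :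
    ∃ a : picZero m k, S.Mem (x.1 * Cl.const K a.1) := by
  have hx : x.1.euler = (1 : Cl m K).euler := by
    simpa [Cl.map_id] using x.2.2 K (AlgHom.id k K)
  obtain ⟨a, ha, hac⟩ := Cl.exists_twist_acyclic (fun j => x.1 * Cl.const K (S.L j)) fun j => by
    rw [Cl.euler_mul, euler_const, S.euler_L, hx]
    ring
  refine ⟨⟨a, Cl.rigTriv_of_field a, fun K' _ _ _ φ => ?_⟩, fun j => ?_⟩
  · rw [Cl.euler_map_field, ha, ← Cl.euler_map_field φ (1 : Cl m k), map_one]
  · rw [mul_right_comm]
    exact hac j

end ChartSetup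

open ChartSetup in
/-- **The functor of rigidified classes of degree zero has a chart**: an open subfunctor represented
by a smooth algebra whose rational translates cover. -/
theorem exists_chart (m : CurveModel k) : Nonempty (picZeroFun m).Chart := by
  obtain ⟨S⟩ := ChartSetup.exists_setup m
  obtain ⟨Q, _, _, _, T, hT⟩ := S.exists_ring
  obtain ⟨G, fr, hfr⟩ := T.exists_frame
  let mem : ∀ (A : Type u) [CommRing A] [Algebra k A], picZero m A → Prop :=
    fun A _ _ x => S.Mem x.1
  let univ : picZero m Q := ⟨S.untwist G, untwist_mem_picZero fr⟩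
  have mem_map : ∀ {A A' : Type u} [CommRing A] [Algebra k A] [CommRing A'] [Algebra k A']
      (φ : A →ₐ[k] A') (x : picZero m A), mem A x → mem A' ((picZeroFun m).map φ x) :=
    fun φ x hx => hx.map φ
  have mem_of_fibres : ∀ (A : Type u) [CommRing A] [Algebra k A] (x : picZero m A),
      (∀ (K : Type u) [Field K] [IsAlgClosed K] [Algebra k K] (φ : A →ₐ[k] K),
        mem K ((picZeroFun m).map φ x)) → mem A x :=
    fun A _ _ x h j => Cl.acyclic_of_fibres _ fun K _ _ _ φ => by
      rw [map_mul, Cl.map_const]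
      exact h K φ j
  have existsUnique : ∀ (A : Type u) [CommRing A] [Algebra k A] (x : picZero m A), mem A x →
      ∃! φ : Q →ₐ[k] A, (picZeroFun m).map φ univ = x := by
    intro A _ _ x hx
    obtain ⟨E, hE⟩ := Cl.mk_surjective (x.1 * Cl.const A S.N)
    obtain ⟨frE⟩ := hx.exists_frame x.2.1 hE
    have hxE : x.1 = S.untwist E := by rw [untwist, hE, mul_inv_cancel_right]
    obtain ⟨φ, hφ, huniq⟩ := hT A frE.tuple
    refine ⟨φ, Subtype.ext ?_, fun ψ hψ => huniq ψ ?_⟩
    · show Cl.map φ (S.untwist G) = x.1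
      rw [hxE]
      exact untwist_map (fr.isBaseChangeData φ frE (by rw [hfr, hφ]))
    · obtain ⟨G', fr', hfr', hmap⟩ := map_untwist ψ fr
      rw [← hfr, ← hfr']
      have h : Cl.mk G' = Cl.mk E := mul_right_cancel
        ((hmap.symm.trans (congrArg Subtype.val hψ)).trans hxE)
      obtain ⟨e⟩ := Cl.mk_eq_mk.1 h
      rw [(fr'.ofIso e).tuple_eq frE, fr'.tuple_ofIso]
  exact ⟨{
    mem := mem
    mem_map := mem_map
    mem_of_fibres := mem_of_fibres
    mem_away := fun A _ _ x K _ _ _ φ h => by
      obtain ⟨f, hf, hac⟩ := Cl.exists_away_acyclic_finset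
        (fun j => x.1 * Cl.const A (S.L j)) φ fun j => by
          rw [map_mul, Cl.map_const]
          exact h j
      refine ⟨f, hf, fun j => ?_⟩
      have := hac j
      rw [map_mul, Cl.map_const] at this
      exact this
    Q := Q
    smooth := smooth_of_represents mem mem_map mem_of_fibres Q univ (mem_untwist fr) existsUnique
    univ := univ
    univ_mem := mem_untwist fr
    existsUnique := existsUnique
    cover := fun K _ _ _ x => ChartSetup.Mem.cover S x }⟩

end Fermat.Agent.Jac
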