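import Fermat.Agent.Jac.Cl
import Fermat.Agent.Jac.Point.Ideals
import Fermat.Agent.Jac.Point.Rig

/-!
# Point ideals and rigidification

`Cl.point` is the class of the ideal of a point, and `Cl.exists_cover_rigTriv` trivialises classes
locally along the marked section.
-/

set_option autoImplicit false

universe u

open scoped TensorProduct

namespace Fermat.Agent.Jac

variable {k : Type u} [Field k] {m : CurveModel k} {A : Type u} [CommRing A] [Algebra k A]

namespace Point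

/-- The element `f s - 1` of the second chart, where `f` is the value of `t` at the point. -/
noncomputable def cut1 (φ : m.B0 →ₐ[k] A) : m.R1 A := (φ m.t ⊗ₜ[k] (1 : m.B1)) * m.sA A - 1

/-- The element `g t - 1` of the first chart, where `g` is the value of `s` at the point. -/
noncomputable def cut0 (φ : m.B1 →ₐ[k] A) : m.R0 A := (φ m.s ⊗ₜ[k] (1 : m.B0)) * m.tA A - 1

theorem ι1_cut1 (φ : m.B0 →ₐ[k] A) :
    m.ι1 A (cut1 φ) = -((1 : A) ⊗ₜ[k] m.i1 m.s) * m.ι0 A (gen φ m.t) := by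
  have h1 : m.i1 m.s * m.i0 m.t = 1 := by rw [mul_comm]; exact m.t_mul_s
  simp [cut1, gen, CurveModel.sA, CurveModel.ι0, CurveModel.ι1, mul_sub,
    Algebra.TensorProduct.tmul_mul_tmul, h1, Algebra.TensorProduct.one_def]
  abel

theorem ι0_cut0 (φ : m.B1 →ₐ[k] A) :
    m.ι0 A (cut0 φ) = -((1 : A) ⊗ₜ[k] m.i0 m.t) * m.ι1 A (gen φ m.s) := by
  simp [cut0, gen, CurveModel.tA, CurveModel.ι0, CurveModel.ι1, mul_sub,
    Algebra.TensorProduct.tmul_mul_tmul, m.t_mul_s, Algebra.TensorProduct.one_def]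
  abel

theorem ι1_cut1_mem (φ : m.B0 →ₐ[k] A) :
    m.ι1 A (cut1 φ) ∈ (RingHom.ker (m.ev0 φ)).map (m.ι0 A) := by
  rw [ι1_cut1]
  exact Ideal.mul_mem_left _ _ (Ideal.mem_map_of_mem _ (gen_mem_ker φ m.t))

theorem ι0_cut0_mem (φ : m.B1 →ₐ[k] A) :
    m.ι0 A (cut0 φ) ∈ (RingHom.ker (m.ev1 φ)).map (m.ι1 A) := by
  rw [ι0_cut0]
  exact Ideal.mul_mem_left _ _ (Ideal.mem_map_of_mem _ (gen_mem_ker φ m.s))

theorem regular_gen0 (φ : m.B0 →ₐ[k] A) (y : m.R0 A) (hy : gen φ m.t * y = 0) : y = 0 :=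
  regular_sub m.t m.finite0 m.transcendental0 m.dedekind0 (φ m.t) y hy

theorem regular_gen1 (φ : m.B1 →ₐ[k] A) (y : m.R1 A) (hy : gen φ m.s * y = 0) : y = 0 :=
  regular_sub m.s m.finite1 m.transcendental1 m.dedekind1 (φ m.s) y hy

theorem regular_cut1 (φ : m.B0 →ₐ[k] A) (y : m.R1 A) (hy : cut1 φ * y = 0) : y = 0 := by
  refine (injAway1 (m := m) (A := A)).inj ?_
  rw [map_zero]
  refine (injAway0 (m := m) (A := A)).regular_map (regular_gen0 φ) _ ?_
  have h := congrArg (m.ι1 A) hy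
  rw [map_mul, ι1_cut1, map_zero, neg_mul, neg_mul, neg_eq_zero, mul_assoc] at h
  exact ((isUnit_i1_s (m := m)).map
    (Algebra.TensorProduct.includeRight (R := k) (A := A) (B := m.B01))).mul_right_eq_zero.1 h

theorem regular_cut0 (φ : m.B1 →ₐ[k] A) (y : m.R0 A) (hy : cut0 φ * y = 0) : y = 0 := by
  refine (injAway0 (m := m) (A := A)).inj ?_
  rw [map_zero]
  refine (injAway1 (m := m) (A := A)).regular_map (regular_gen1 φ) _ ?_
  have h := congrArg (m.ι0 A) hy
  rw [map_mul, ι0_cut0, map_zero, neg_mul, neg_mul, neg_eq_zero, mul_assoc] at h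
  exact ((isUnit_i0_t (m := m)).map
    (Algebra.TensorProduct.includeRight (R := k) (A := A) (B := m.B01))).mul_right_eq_zero.1 h

theorem evPt_map {B C : Type u} [CommRing B] [Algebra k B] [CommRing C] [Algebra k C]
    (i : B →ₐ[k] C) (p : C →ₐ[k] A) (y : A ⊗[k] B) :
    evPt p (Algebra.TensorProduct.map (AlgHom.id A A) i y) = evPt (p.comp i) y := by
  induction y using TensorProduct.induction_on with
  | zero => simp
  | tmul a b => simp [evPt_tmul]
  | add x y hx hy => simp only [map_add, hx, hy]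

theorem map_ker_overlap {B C : Type u} [CommRing B] [Algebra k B] [CommRing C] [Algebra k C]
    (i : B →ₐ[k] C) (p : C →ₐ[k] A) {e : A ⊗[k] B}
    (h : InjAway (Algebra.TensorProduct.map (AlgHom.id A A) i).toRingHom e) :
    (RingHom.ker (evPt (p.comp i)).toRingHom).map
        (Algebra.TensorProduct.map (AlgHom.id A A) i).toRingHom =
      RingHom.ker (evPt p).toRingHom := by
  refine le_antisymm (Ideal.map_le_iff_le_comap.2 fun y hy => ?_) fun x hx => ?_
  · exact (evPt_map i p y).trans hy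
  · obtain ⟨n, y, hy⟩ := h.surj x
    have hy0 : y ∈ RingHom.ker (evPt (p.comp i)).toRingHom := by
      have h2 := congrArg (evPt p) hy
      have hx' : evPt p x = 0 := hx
      rw [map_mul, hx', mul_zero] at h2
      exact (evPt_map i p y).symm.trans h2
    exact ((Ideal.unit_mul_mem_iff_mem _ (h.isUnit.pow n)).1 (hy ▸ Ideal.mem_map_of_mem _ hy0))

theorem comap_ker_overlap {B C : Type u} [CommRing B] [Algebra k B] [CommRing C] [Algebra k C]
    (i : B →ₐ[k] C) (p : C →ₐ[k] A) :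
    (RingHom.ker (evPt p).toRingHom).comap
        (Algebra.TensorProduct.map (AlgHom.id A A) i).toRingHom =
      RingHom.ker (evPt (p.comp i)).toRingHom := by
  ext y
  exact Eq.to_iff (congrArg (· = 0) (evPt_map i p y))

theorem map_contract1 {A' : Type u} [CommRing A'] [Algebra k A'] (φ : A →ₐ[k] A')
    (p : m.B0 →ₐ[k] A) :
    (((RingHom.ker (m.ev0 p)).map (m.ι0 A)).comap (m.ι1 A)).map (m.map1 φ) =
      ((RingHom.ker (m.ev0 (φ.comp p))).map (m.ι0 A')).comap (m.ι1 A') := by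
  have hcut : m.map1 φ (cut1 p) = cut1 (φ.comp p) := by
    simp [cut1, CurveModel.map1, CurveModel.sA, Algebra.TensorProduct.one_def]
  have hmem := Ideal.mem_map_of_mem (m.map1 φ)
    (show cut1 p ∈ ((RingHom.ker (m.ev0 p)).map (m.ι0 A)).comap (m.ι1 A) from ι1_cut1_mem p)
  rw [hcut] at hmem
  rw [← (injAway1 (m := m) (A := A')).comap_map_eq hmem]
  congr 1
  rw [Ideal.map_map, show (m.ι1 A').comp (m.map1 φ) = (m.map01 φ).comp (m.ι1 A) from
      RingHom.ext fun x => (map01_ι1 φ x).symm,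
    ← Ideal.map_map, injAway1.map_comap, Ideal.map_map,
    show (m.map01 φ).comp (m.ι0 A) = (m.ι0 A').comp (m.map0 φ) from
      RingHom.ext (map01_ι0 φ), ← Ideal.map_map]
  exact congrArg _ (map_ker_evPt φ p)

theorem map_contract0 {A' : Type u} [CommRing A'] [Algebra k A'] (φ : A →ₐ[k] A')
    (p : m.B1 →ₐ[k] A) :
    (((RingHom.ker (m.ev1 p)).map (m.ι1 A)).comap (m.ι0 A)).map (m.map0 φ) =
      ((RingHom.ker (m.ev1 (φ.comp p))).map (m.ι1 A')).comap (m.ι0 A') := by
  have hcut : m.map0 φ (cut0 p) = cut0 (φ.comp p) := by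
    simp [cut0, CurveModel.map0, CurveModel.tA, Algebra.TensorProduct.one_def]
  have hmem := Ideal.mem_map_of_mem (m.map0 φ)
    (show cut0 p ∈ ((RingHom.ker (m.ev1 p)).map (m.ι1 A)).comap (m.ι0 A) from ι0_cut0_mem p)
  rw [hcut] at hmem
  rw [← (injAway0 (m := m) (A := A')).comap_map_eq hmem]
  congr 1
  rw [Ideal.map_map, show (m.ι0 A').comp (m.map0 φ) = (m.map01 φ).comp (m.ι0 A) from
      RingHom.ext fun x => (map01_ι0 φ x).symm,
    ← Ideal.map_map, injAway0.map_comap, Ideal.map_map,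
    show (m.map01 φ).comp (m.ι1 A) = (m.ι1 A').comp (m.map1 φ) from
      RingHom.ext (map01_ι1 φ), ← Ideal.map_map]
  exact congrArg _ (map_ker_evPt φ p)

theorem epsA_surjective : Function.Surjective (m.epsA A) :=
  fun a => ⟨a ⊗ₜ 1, by simp [CurveModel.epsA]⟩

theorem epsA_map1 {A' : Type u} [CommRing A'] [Algebra k A'] (φ : A →ₐ[k] A') (x : m.R1 A) :
    m.epsA A' (m.map1 φ x) = φ (m.epsA A x) := by
  induction x using TensorProduct.induction_on with
  | zero => simp
  | tmul a b => simp [CurveModel.epsA, CurveModel.map1]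
  | add x y hx hy => simp only [map_add, hx, hy]

/-- A functional on the second chart with spanning image gives a trivialisation after base
change. -/
theorem rigTriv_of_spanning {A' : Type u} [CommRing A'] [Algebra k A'] {φ : A →ₐ[k] A'}
    {D : LineData m A} {E : LineData m A'} (hE : D.IsBaseChangeData φ E)
    (g : D.M1 →ₛₗ[φ.toRingHom.comp (m.epsA A)] A')
    (hg : Submodule.span A' (Set.range g) = ⊤) : E.RigTriv := by
  obtain ⟨f0, f1, f01, -, -, -, hf1⟩ := hE
  let g' : D.M1 →ₛₗ[(m.epsA A').comp (m.map1 φ)] A' :=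
    { toFun := g, map_add' := g.map_add,
      map_smul' := fun r x => by
        rw [g.map_smulₛₗ]
        exact congrArg (· • g x) (epsA_map1 φ r).symm }
  exact exists_surjective_of_spanning (m.epsA A') epsA_surjective f1 hf1 g' hg

end Point

namespace LineData

/-- `D` is the ideal of a point of the first chart. -/
def IsPointIdeal0 (φ : m.B0 →ₐ[k] A) (D : LineData m A) : Prop :=
  ∃ (j0 : D.M0 →ₗ[m.R0 A] m.R0 A) (j1 : D.M1 →ₗ[m.R1 A] m.R1 A)
    (j01 : D.M01 →ₗ[m.R01 A] m.R01 A),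
    Function.Injective j0 ∧ Function.Injective j1 ∧ Function.Injective j01 ∧
    (∀ x, j01 (D.res0 x) = m.ι0 A (j0 x)) ∧ (∀ x, j01 (D.res1 x) = m.ι1 A (j1 x)) ∧
    LinearMap.range j0 = RingHom.ker (m.ev0 φ) ∧
    LinearMap.range j1 = ((RingHom.ker (m.ev0 φ)).map (m.ι0 A)).comap (m.ι1 A)

/-- `D` is the ideal of a point of the second chart. -/
def IsPointIdeal1 (φ : m.B1 →ₐ[k] A) (D : LineData m A) : Prop :=
  ∃ (j0 : D.M0 →ₗ[m.R0 A] m.R0 A) (j1 : D.M1 →ₗ[m.R1 A] m.R1 A)
    (j01 : D.M01 →ₗ[m.R01 A] m.R01 A),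
    Function.Injective j0 ∧ Function.Injective j1 ∧ Function.Injective j01 ∧
    (∀ x, j01 (D.res0 x) = m.ι0 A (j0 x)) ∧ (∀ x, j01 (D.res1 x) = m.ι1 A (j1 x)) ∧
    LinearMap.range j1 = RingHom.ker (m.ev1 φ) ∧
    LinearMap.range j0 = ((RingHom.ker (m.ev1 φ)).map (m.ι1 A)).comap (m.ι0 A)

/-- Points of the first chart have line data given by their ideal. -/
theorem exists_isPointIdeal0 (φ : m.B0 →ₐ[k] A) : ∃ D : LineData m A, D.IsPointIdeal0 φ := by
  have hloc : Point.LocPrincipal (RingHom.ker (m.ev0 φ)) :=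
    Point.locPrincipal_ker m.t m.finite0 m.transcendental0 m.dedekind0 φ
  exact exists_hasIdeals _ _
    (Point.invertible_of_locPrincipal (Point.gen_mem_ker φ m.t) (Point.regular_gen0 φ) hloc)
    (Point.invertible_of_locPrincipal (I := Ideal.comap (m.ι1 A) _) (Point.ι1_cut1_mem φ)
      (Point.regular_cut1 φ)
      (Point.injAway1.locPrincipal_comap (f := φ m.t ⊗ₜ 1) (Point.ι1_cut1_mem φ) hloc.map))
    (Point.invertible_of_locPrincipal (Ideal.mem_map_of_mem _ (Point.gen_mem_ker φ m.t))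
      (Point.injAway0.regular_map (Point.regular_gen0 φ)) hloc.map)
    (Point.injAway1.map_comap _)

theorem exists_isPointIdeal1 (φ : m.B1 →ₐ[k] A) : ∃ D : LineData m A, D.IsPointIdeal1 φ := by
  have hloc : Point.LocPrincipal (RingHom.ker (m.ev1 φ)) :=
    Point.locPrincipal_ker m.s m.finite1 m.transcendental1 m.dedekind1 φ
  have hmap : (((RingHom.ker (m.ev1 φ)).map (m.ι1 A)).comap (m.ι0 A)).map (m.ι0 A) =
      (RingHom.ker (m.ev1 φ)).map (m.ι1 A) := Point.injAway0.map_comap _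
  obtain ⟨D, j0, j1, j01, h0, h1, h01, c0, c1, r0, r1⟩ := exists_hasIdeals (m := m)
    (((RingHom.ker (m.ev1 φ)).map (m.ι1 A)).comap (m.ι0 A)) (RingHom.ker (m.ev1 φ))
    (Point.invertible_of_locPrincipal (I := Ideal.comap (m.ι0 A) _) (Point.ι0_cut0_mem φ)
      (Point.regular_cut0 φ)
      (Point.injAway0.locPrincipal_comap (f := φ m.s ⊗ₜ 1) (Point.ι0_cut0_mem φ) hloc.map))
    (Point.invertible_of_locPrincipal (Point.gen_mem_ker φ m.s) (Point.regular_gen1 φ) hloc)
    (by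
      rw [hmap]
      exact Point.invertible_of_locPrincipal (Ideal.mem_map_of_mem _ (Point.gen_mem_ker φ m.s))
        (Point.injAway1.regular_map (Point.regular_gen1 φ)) hloc.map)
    hmap.symm
  exact ⟨D, j0, j1, j01, h0, h1, h01, c0, c1, r1, r0⟩

theorem IsPointIdeal0.hasIdeals {φ : m.B0 →ₐ[k] A} {D : LineData m A} (h : D.IsPointIdeal0 φ) :
    D.HasIdeals (RingHom.ker (m.ev0 φ))
      (((RingHom.ker (m.ev0 φ)).map (m.ι0 A)).comap (m.ι1 A)) := h

theorem IsPointIdeal1.hasIdeals {φ : m.B1 →ₐ[k] A} {D : LineData m A} (h : D.IsPointIdeal1 φ) :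
    D.HasIdeals (((RingHom.ker (m.ev1 φ)).map (m.ι1 A)).comap (m.ι0 A))
      (RingHom.ker (m.ev1 φ)) := by
  obtain ⟨j0, j1, j01, h0, h1, h01, c0, c1, r1, r0⟩ := h
  exact ⟨j0, j1, j01, h0, h1, h01, c0, c1, r0, r1⟩

end LineData

/-- The ideal class of a point of the first chart. -/
noncomputable def Cl.point0 (φ : m.B0 →ₐ[k] A) : Cl m A :=
  Cl.mk (LineData.exists_isPointIdeal0 φ).choose

/-- The ideal class of a point of the second chart. -/
noncomputable def Cl.point1 (φ : m.B1 →ₐ[k] A) : Cl m A :=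
  Cl.mk (LineData.exists_isPointIdeal1 φ).choose

/-- A point of the curve with values in `A` lying in one of the two charts. -/
abbrev ChartPoint (m : CurveModel k) (A : Type u) [CommRing A] [Algebra k A] : Type u :=
  (m.B0 →ₐ[k] A) ⊕ (m.B1 →ₐ[k] A)

/-- The ideal class of a point. -/
noncomputable def Cl.point : ChartPoint m A → Cl m A :=
  Sum.elim Cl.point0 Cl.point1

/-- The marked point. -/
noncomputable def epsPoint (m : CurveModel k) (A : Type u) [CommRing A] [Algebra k A] :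
    ChartPoint m A :=
  Sum.inr ((Algebra.ofId k A).comp m.eps)

theorem Cl.map_point0 {A' : Type u} [CommRing A'] [Algebra k A'] (φ : A →ₐ[k] A')
    (p : m.B0 →ₐ[k] A) : Cl.map φ (Cl.point0 p) = Cl.point0 (φ.comp p) := by
  exact Cl.map_mk φ
    ((LineData.exists_isPointIdeal0 p).choose_spec.hasIdeals.isBaseChangeData
      (LineData.exists_isPointIdeal0 (φ.comp p)).choose_spec.hasIdeals
      (Point.map_ker_evPt φ p) (Point.map_contract1 φ p))

theorem Cl.map_point1 {A' : Type u} [CommRing A'] [Algebra k A'] (φ : A →ₐ[k] A')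
    (p : m.B1 →ₐ[k] A) : Cl.map φ (Cl.point1 p) = Cl.point1 (φ.comp p) := by
  exact Cl.map_mk φ
    ((LineData.exists_isPointIdeal1 p).choose_spec.hasIdeals.isBaseChangeData
      (LineData.exists_isPointIdeal1 (φ.comp p)).choose_spec.hasIdeals
      (Point.map_contract0 φ p) (Point.map_ker_evPt φ p))

/-- A point of the overlap has the same class in both charts. -/
theorem Cl.point0_eq_point1 (p : m.B01 →ₐ[k] A) :
    (Cl.point0 (p.comp m.i0) : Cl m A) = Cl.point1 (p.comp m.i1) := by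
  refine Cl.mk_eq_mk.2 ?_
  have h := (LineData.exists_isPointIdeal0 (p.comp m.i0)).choose_spec.hasIdeals
  have h' := (LineData.exists_isPointIdeal1 (p.comp m.i1)).choose_spec.hasIdeals
  have e0 : (RingHom.ker (m.ev0 (p.comp m.i0))).map (m.ι0 A) =
      RingHom.ker (Point.evPt p).toRingHom := Point.map_ker_overlap m.i0 p Point.injAway0
  have e1 : (RingHom.ker (m.ev1 (p.comp m.i1))).map (m.ι1 A) =
      RingHom.ker (Point.evPt p).toRingHom := Point.map_ker_overlap m.i1 p Point.injAway1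
  rw [e0] at h
  rw [e1] at h'
  have f0 : (RingHom.ker (Point.evPt p).toRingHom).comap (m.ι0 A) =
      RingHom.ker (m.ev0 (p.comp m.i0)) := Point.comap_ker_overlap m.i0 p
  have f1 : (RingHom.ker (Point.evPt p).toRingHom).comap (m.ι1 A) =
      RingHom.ker (m.ev1 (p.comp m.i1)) := Point.comap_ker_overlap m.i1 p
  rw [f1] at h
  rw [f0] at h'
  exact h.iso h'

theorem Cl.rigTriv_one : (1 : Cl m A).RigTriv := by
  refine (Cl.rigTriv_mk _).2 ⟨⟨⟨m.epsA A, (m.epsA A).map_add⟩, fun r x => map_mul (m.epsA A) r x⟩,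
    Point.epsA_surjective⟩

theorem Cl.rigTriv_mul {x y : Cl m A} (hx : x.RigTriv) (hy : y.RigTriv) : (x * y).RigTriv := by
  obtain ⟨D, rfl⟩ := Cl.mk_surjective x
  obtain ⟨E, rfl⟩ := Cl.mk_surjective y
  obtain ⟨F, hF⟩ := LineData.exists_isProduct D E
  rw [Cl.mk_mul hF, Cl.rigTriv_mk]
  obtain ⟨g0, g1, g01, -, -, -, hs⟩ := hF
  obtain ⟨a, ha⟩ := hx
  obtain ⟨b, hb⟩ := hy
  exact Point.exists_surjective_mul g1 hs a ha b hb

theorem Cl.rigTriv_inv {x : Cl m A} (hx : x.RigTriv) : x⁻¹.RigTriv := by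
  obtain ⟨D, rfl⟩ := Cl.mk_surjective x
  obtain ⟨E, hE⟩ := Cl.mk_surjective (Cl.mk D)⁻¹
  rw [← hE, Cl.rigTriv_mk]
  obtain ⟨F, hF⟩ := LineData.exists_isProduct D E
  have h1 : Cl.mk F = 1 := by rw [← Cl.mk_mul hF, hE, mul_inv_cancel]
  obtain ⟨e⟩ := Cl.mk_eq_mk.1 h1
  obtain ⟨g0, g1, g01, -, -, -, hs⟩ := hF
  obtain ⟨a, ha⟩ := hx
  refine Point.exists_surjective_inv (g1.compr₂ e.e1.toLinearMap) ?_ Point.epsA_surjective a ha
  have := congrArg (Submodule.map e.e1.toLinearMap) hs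
  rw [Submodule.map_span, Submodule.map_top, LinearEquiv.range, ← Set.range_comp] at this
  exact this

theorem Cl.RigTriv.map {A' : Type u} [CommRing A'] [Algebra k A'] (φ : A →ₐ[k] A') {x : Cl m A}
    (hx : x.RigTriv) : (Cl.map φ x).RigTriv := by
  obtain ⟨D, rfl⟩ := Cl.mk_surjective x
  obtain ⟨E, hE⟩ := LineData.exists_isBaseChangeData φ D
  rw [Cl.map_mk φ hE, Cl.rigTriv_mk]
  obtain ⟨l, hl⟩ := hx
  refine Point.rigTriv_of_spanning hE
    { toFun := fun y => φ (l y), map_add' := fun y z => by simp [map_add],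
      map_smul' := fun r y => by simp [LinearMap.map_smulₛₗ, map_mul] } ?_
  obtain ⟨y, hy⟩ := hl 1
  exact (Ideal.eq_top_iff_one _).2 (Submodule.subset_span ⟨y, (congrArg φ hy).trans (map_one φ)⟩)

theorem Cl.rigTriv_of_field {K : Type u} [Field K] [Algebra k K] (x : Cl m K) : x.RigTriv := by
  obtain ⟨D, rfl⟩ := Cl.mk_surjective x
  obtain ⟨l, hl⟩ := Point.exists_surjective_field (M := D.M1) (m.epsA K)
  exact (Cl.rigTriv_mk D).2 ⟨l, Point.surjective_of_span Point.epsA_surjective l hl⟩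

/-- Locally on the base every class is rigidifiable. -/
theorem Cl.exists_cover_rigTriv (x : Cl m A) :
    ∃ s : Finset A, Ideal.span (s : Set A) = ⊤ ∧
      ∀ f ∈ s, (Cl.map (IsScalarTower.toAlgHom k A (Localization.Away f)) x).RigTriv := by
  obtain ⟨D, rfl⟩ := Cl.mk_surjective x
  obtain ⟨s, hs, hloc⟩ := Point.exists_cover (M := D.M1) (m.epsA A)
  refine ⟨s, hs, fun f hf => ?_⟩
  obtain ⟨l, hl⟩ := hloc f hf
  obtain ⟨E, hE⟩ :=
    LineData.exists_isBaseChangeData (IsScalarTower.toAlgHom k A (Localization.Away f)) D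
  rw [Cl.map_mk _ hE, Cl.rigTriv_mk]
  exact Point.rigTriv_of_spanning hE l hl

end Fermat.Agent.Jac
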