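import Fermat.Agent.Jac.DataOps

/-!
# The group of classes of line data

The group functor built from base change, products and inverses of line data.
-/

set_option autoImplicit false

universe u

open scoped TensorProduct

namespace Fermat.Agent.Jac

variable {k : Type u} [Field k] {m : CurveModel k} {A : Type u} [CommRing A] [Algebra k A]

variable (m A) in
/-- Isomorphism classes of line data. -/
def Cl : Type (u + 1) := Quotient (LineData.isoSetoid (m := m) (A := A))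

/-- The class of line data. -/
def Cl.mk (D : LineData m A) : Cl m A := Quotient.mk _ D

theorem Cl.mk_eq_mk {D E : LineData m A} : Cl.mk D = Cl.mk E ↔ Nonempty (LineData.Iso D E) :=
  Quotient.eq

theorem Cl.mk_surjective : Function.Surjective (Cl.mk : LineData m A → Cl m A) :=
  Quotient.mk_surjective

noncomputable instance Cl.instOne : One (Cl m A) := ⟨Cl.mk LineData.trivialData⟩

noncomputable instance Cl.instMul : Mul (Cl m A) :=
  ⟨Quotient.lift₂ (fun D E => Cl.mk (LineData.exists_isProduct D E).choose)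
    fun D E D' E' ⟨d⟩ ⟨e⟩ => Cl.mk_eq_mk.2
      ((LineData.exists_isProduct D E).choose_spec.unique d e
        (LineData.exists_isProduct D' E').choose_spec)⟩

theorem Cl.mk_mul {D E F : LineData m A} (h : LineData.IsProduct D E F) :
    Cl.mk D * Cl.mk E = Cl.mk F :=
  Cl.mk_eq_mk.2 ((LineData.exists_isProduct D E).choose_spec.unique (.refl D) (.refl E) h)

protected theorem Cl.mul_assoc (x y z : Cl m A) : x * y * z = x * (y * z) := by
  obtain ⟨D, rfl⟩ := Cl.mk_surjective x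
  obtain ⟨E, rfl⟩ := Cl.mk_surjective y
  obtain ⟨F, rfl⟩ := Cl.mk_surjective z
  obtain ⟨DE, hDE⟩ := LineData.exists_isProduct D E
  obtain ⟨EF, hEF⟩ := LineData.exists_isProduct E F
  obtain ⟨X, hX⟩ := LineData.exists_isProduct DE F
  rw [Cl.mk_mul hDE, Cl.mk_mul hEF, Cl.mk_mul hX]
  obtain ⟨a0, a1, a01, ca0, ca1, sa0, sa1⟩ := hDE
  obtain ⟨b0, b1, b01, cb0, cb1, sb0, sb1⟩ := hEF
  obtain ⟨g0, g1, g01, cg0, cg1, sg0, sg1⟩ := hX
  obtain ⟨G0, hG0, sG0⟩ := Semilin.exists_assoc a0 sa0 b0 sb0 g0 sg0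
  obtain ⟨G1, hG1, sG1⟩ := Semilin.exists_assoc a1 sa1 b1 sb1 g1 sg1
  obtain ⟨G01, hG01, -⟩ := Semilin.exists_assoc a01 (LineData.IsProduct.span01 a0 a01 ca0 sa0)
    b01 (LineData.IsProduct.span01 b0 b01 cb0 sb0) g01 (LineData.IsProduct.span01 g0 g01 cg0 sg0)
  refine (Cl.mk_mul ⟨G0, G1, G01, fun d w => ?_, fun d w => ?_, sG0, sG1⟩).symm
  · refine Semilin.square_ext EF.res0 X.res0 (G0 d) (G01 (D.res0 d)) (fun _ => rfl) sb0 ?_ w
    rintro _ ⟨p, rfl⟩
    simp [hG0, hG01, cg0, ca0, cb0]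
  · refine Semilin.square_ext EF.res1 X.res1 (G1 d) (G01 (D.res1 d)) (fun _ => rfl) sb1 ?_ w
    rintro _ ⟨p, rfl⟩
    simp [hG1, hG01, cg1, ca1, cb1]

protected theorem Cl.mul_comm (x y : Cl m A) : x * y = y * x := by
  obtain ⟨D, rfl⟩ := Cl.mk_surjective x
  obtain ⟨E, rfl⟩ := Cl.mk_surjective y
  obtain ⟨F, hF⟩ := LineData.exists_isProduct D E
  rw [Cl.mk_mul hF]
  obtain ⟨g0, g1, g01, c0, c1, s0, s1⟩ := hF
  refine (Cl.mk_mul ⟨g0.flip, g1.flip, g01.flip, fun a b => c0 b a, fun a b => c1 b a, ?_, ?_⟩).symm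
  · refine eq_top_iff.2 (s0.symm.trans_le (Submodule.span_mono ?_))
    rintro _ ⟨p, rfl⟩
    exact ⟨(p.2, p.1), rfl⟩
  · refine eq_top_iff.2 (s1.symm.trans_le (Submodule.span_mono ?_))
    rintro _ ⟨p, rfl⟩
    exact ⟨(p.2, p.1), rfl⟩

protected theorem Cl.one_mul (x : Cl m A) : 1 * x = x := by
  obtain ⟨D, rfl⟩ := Cl.mk_surjective x
  refine Cl.mk_mul ⟨LinearMap.lsmul (m.R0 A) D.M0, LinearMap.lsmul (m.R1 A) D.M1,
    LinearMap.lsmul (m.R01 A) D.M01, fun r y => D.res0.map_smulₛₗ r y,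
    fun r y => D.res1.map_smulₛₗ r y, ?_, ?_⟩
  · exact eq_top_iff.2 fun y _ => Submodule.subset_span ⟨((1 : m.R0 A), y), one_smul _ y⟩
  · exact eq_top_iff.2 fun y _ => Submodule.subset_span ⟨((1 : m.R1 A), y), one_smul _ y⟩

protected theorem Cl.exists_inv (x : Cl m A) : ∃ y : Cl m A, y * x = 1 := by
  obtain ⟨D, rfl⟩ := Cl.mk_surjective x
  obtain ⟨E, hE⟩ := D.exists_inverse
  exact ⟨Cl.mk E, by rw [Cl.mul_comm, Cl.mk_mul hE]; rfl⟩

noncomputable instance Cl.instCommGroup : CommGroup (Cl m A) :=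
  { Cl.instMul, Cl.instOne with
    mul_assoc := Cl.mul_assoc
    one_mul := Cl.one_mul
    mul_one := fun x => (Cl.mul_comm x 1).trans (Cl.one_mul x)
    mul_comm := Cl.mul_comm
    inv := fun x => (Cl.exists_inv x).choose
    inv_mul_cancel := fun x => (Cl.exists_inv x).choose_spec }

/-- Base change of classes, as a function. -/
noncomputable def Cl.mapFun {A' : Type u} [CommRing A'] [Algebra k A'] (φ : A →ₐ[k] A') :
    Cl m A → Cl m A' :=
  Quotient.lift (fun D => Cl.mk (LineData.exists_isBaseChangeData φ D).choose)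
    fun D D' ⟨e⟩ => Cl.mk_eq_mk.2
      ((LineData.exists_isBaseChangeData φ D).choose_spec.unique e
        (LineData.exists_isBaseChangeData φ D').choose_spec)

theorem Cl.mapFun_mk {A' : Type u} [CommRing A'] [Algebra k A'] (φ : A →ₐ[k] A')
    {D : LineData m A} {E : LineData m A'} (h : D.IsBaseChangeData φ E) :
    Cl.mapFun φ (Cl.mk D) = Cl.mk E :=
  Cl.mk_eq_mk.2 ((LineData.exists_isBaseChangeData φ D).choose_spec.unique (.refl D) h)

theorem Cl.mapFun_mul {A' : Type u} [CommRing A'] [Algebra k A'] (φ : A →ₐ[k] A')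
    (x y : Cl m A) : Cl.mapFun φ (x * y) = Cl.mapFun φ x * Cl.mapFun φ y := by
  obtain ⟨D, rfl⟩ := Cl.mk_surjective x
  obtain ⟨E, rfl⟩ := Cl.mk_surjective y
  obtain ⟨F, hF⟩ := LineData.exists_isProduct D E
  obtain ⟨D', hD⟩ := LineData.exists_isBaseChangeData φ D
  obtain ⟨E', hE⟩ := LineData.exists_isBaseChangeData φ E
  obtain ⟨F', hF'⟩ := LineData.exists_isProduct D' E'
  rw [Cl.mk_mul hF, Cl.mapFun_mk φ hD, Cl.mapFun_mk φ hE, Cl.mk_mul hF']
  apply Cl.mapFun_mk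
  obtain ⟨g0, g1, g01, c0, c1, s0, s1⟩ := hF
  obtain ⟨g0', g1', g01', c0', c1', s0', s1'⟩ := hF'
  obtain ⟨d0, d1, d01, cd0, cd1, sd0, sd1⟩ := hD
  obtain ⟨e0, e1, e01, ce0, ce1, se0, se1⟩ := hE
  obtain ⟨f0, hf0⟩ := Semilin.exists_lift₂ g0 s0 (m.map0 φ)
    (AddMonoidHom.mk' (fun a => (g0' (d0 a)).toAddMonoidHom.comp e0.toAddMonoidHom)
      fun a b => by ext c; simp)
    (fun r a b => by simp) (fun r a b => by simp)
  obtain ⟨f1, hf1⟩ := Semilin.exists_lift₂ g1 s1 (m.map1 φ)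
    (AddMonoidHom.mk' (fun a => (g1' (d1 a)).toAddMonoidHom.comp e1.toAddMonoidHom)
      fun a b => by ext c; simp)
    (fun r a b => by simp) (fun r a b => by simp)
  obtain ⟨f01, hf01⟩ := Semilin.exists_lift₂ g01 (LineData.IsProduct.span01 g0 g01 c0 s0)
    (m.map01 φ)
    (AddMonoidHom.mk' (fun a => (g01' (d01 a)).toAddMonoidHom.comp e01.toAddMonoidHom)
      fun a b => by ext c; simp)
    (fun r a b => by simp) (fun r a b => by simp)
  refine ⟨f0, f1, f01, fun z => ?_, fun z => ?_, ?_, ?_⟩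
  · refine Semilin.square_ext F.res0 F'.res0 f0 f01 (CurveModel.map01_ι0 φ) s0 ?_ z
    rintro _ ⟨p, rfl⟩
    simp [hf0, hf01, c0, c0', cd0, ce0]
  · refine Semilin.square_ext F.res1 F'.res1 f1 f01 (CurveModel.map01_ι1 φ) s1 ?_ z
    rintro _ ⟨p, rfl⟩
    simp [hf1, hf01, c1, c1', cd1, ce1]
  · refine eq_top_iff.2 ((Semilin.span_image2_eq_top g0' s0' sd0 se0).symm.trans_le
      (Submodule.span_mono ?_))
    rintro _ ⟨_, ⟨a, rfl⟩, _, ⟨b, rfl⟩, rfl⟩
    exact ⟨g0 a b, hf0 a b⟩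
  · refine eq_top_iff.2 ((Semilin.span_image2_eq_top g1' s1' sd1 se1).symm.trans_le
      (Submodule.span_mono ?_))
    rintro _ ⟨_, ⟨a, rfl⟩, _, ⟨b, rfl⟩, rfl⟩
    exact ⟨g1 a b, hf1 a b⟩

/-- Base change of classes. -/
noncomputable def Cl.map {A' : Type u} [CommRing A'] [Algebra k A'] (φ : A →ₐ[k] A') :
    Cl m A →* Cl m A' :=
  MonoidHom.mk' (Cl.mapFun φ) (Cl.mapFun_mul φ)

theorem Cl.map_mk {A' : Type u} [CommRing A'] [Algebra k A'] (φ : A →ₐ[k] A')
    {D : LineData m A} {E : LineData m A'} (h : D.IsBaseChangeData φ E) :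
    Cl.map φ (Cl.mk D) = Cl.mk E :=
  Cl.mk_eq_mk.2 ((LineData.exists_isBaseChangeData φ D).choose_spec.unique (.refl D) h)

theorem Cl.map_id (x : Cl m A) : Cl.map (AlgHom.id k A) x = x := by
  obtain ⟨D, rfl⟩ := Cl.mk_surjective x
  refine Cl.map_mk _ ⟨⟨⟨fun y => y, fun _ _ => rfl⟩, fun r y => ?_⟩,
    ⟨⟨fun y => y, fun _ _ => rfl⟩, fun r y => ?_⟩, ⟨⟨fun y => y, fun _ _ => rfl⟩, fun r y => ?_⟩,
    fun _ => rfl, fun _ => rfl, ?_, ?_⟩
  · simp [CurveModel.map0_id_apply]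
  · simp [CurveModel.map1_id_apply]
  · simp [CurveModel.map01_id_apply]
  · exact eq_top_iff.2 fun y _ => Submodule.subset_span ⟨y, rfl⟩
  · exact eq_top_iff.2 fun y _ => Submodule.subset_span ⟨y, rfl⟩

theorem Cl.map_map {A' A'' : Type u} [CommRing A'] [Algebra k A'] [CommRing A''] [Algebra k A'']
    (φ : A →ₐ[k] A') (ψ : A' →ₐ[k] A'') (x : Cl m A) :
    Cl.map ψ (Cl.map φ x) = Cl.map (ψ.comp φ) x := by
  obtain ⟨D, rfl⟩ := Cl.mk_surjective x
  obtain ⟨E, hE⟩ := LineData.exists_isBaseChangeData φ D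
  obtain ⟨G, hG⟩ := LineData.exists_isBaseChangeData ψ E
  rw [Cl.map_mk φ hE, Cl.map_mk ψ hG]
  obtain ⟨f0, f1, f01, c0, c1, s0, s1⟩ := hE
  obtain ⟨g0, g1, g01, e0, e1, t0, t1⟩ := hG
  refine (Cl.map_mk (ψ.comp φ) ⟨⟨⟨fun a => g0 (f0 a), fun a b => by simp⟩, fun r a => ?_⟩,
    ⟨⟨fun a => g1 (f1 a), fun a b => by simp⟩, fun r a => ?_⟩,
    ⟨⟨fun a => g01 (f01 a), fun a b => by simp⟩, fun r a => ?_⟩,
    fun a => ?_, fun a => ?_, ?_, ?_⟩).symm
  · simp [CurveModel.map0_comp_apply]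
  · simp [CurveModel.map1_comp_apply]
  · simp [CurveModel.map01_comp_apply]
  · simp [e0, c0]
  · simp [e1, c1]
  · exact Semilin.span_comp_eq_top f0 g0 s0 t0
  · exact Semilin.span_comp_eq_top f1 g1 s1 t1

/-- The class pulled back from the base field. -/
noncomputable def Cl.const (A : Type u) [CommRing A] [Algebra k A] : Cl m k →* Cl m A :=
  Cl.map (Algebra.ofId k A)

theorem Cl.map_const {A' : Type u} [CommRing A'] [Algebra k A'] (φ : A →ₐ[k] A') (x : Cl m k) :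
    Cl.map φ (Cl.const A x) = Cl.const A' x := by
  rw [Cl.const, Cl.const, Cl.map_map]
  congr 2
  ext

/-- No cohomology. -/
def Cl.Acyclic : Cl m A → Prop :=
  Quotient.lift LineData.Acyclic fun _ _ ⟨e⟩ =>
    propext ⟨fun h => h.of_iso e, fun h => h.of_iso e.symm⟩

/-- The Euler characteristic over a field. -/
noncomputable def Cl.euler : Cl m A → ℤ :=
  Quotient.lift LineData.euler fun _ _ ⟨e⟩ => LineData.euler_eq_of_iso e

/-- The restriction to the marked section is trivial. -/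
def Cl.RigTriv : Cl m A → Prop :=
  Quotient.lift LineData.RigTriv fun _ _ ⟨e⟩ =>
    propext ⟨fun h => h.of_iso e, fun h => h.of_iso e.symm⟩

theorem Cl.acyclic_mk (D : LineData m A) : (Cl.mk D).Acyclic ↔ D.Acyclic := Iff.rfl

theorem Cl.euler_mk (D : LineData m A) : (Cl.mk D).euler = D.euler := rfl

theorem Cl.rigTriv_mk (D : LineData m A) : (Cl.mk D).RigTriv ↔ D.RigTriv := Iff.rfl

/-- Degree zero on every geometric fibre. -/
def Cl.DegZero (x : Cl m A) : Prop :=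
  ∀ (K : Type u) [Field K] [IsAlgClosed K] [Algebra k K] (φ : A →ₐ[k] K),
    (Cl.map φ x).euler = (1 : Cl m K).euler

end Fermat.Agent.Jac
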