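import Fermat.Agent.Jac.Cohomology.Complex

/-!
# Cohomology of line data

Finiteness, openness of the acyclic locus, local constancy of the Euler characteristic and the
global functions of the curve over a test algebra.
-/

set_option autoImplicit false

universe u

open scoped TensorProduct

namespace Fermat.Agent.Jac

variable {k : Type u} [Field k] {m : CurveModel k} {A : Type u} [CommRing A] [Algebra k A]

theorem LineData.finite_H0 {K : Type u} [Field K] [Algebra k K] (D : LineData m K) :
    Module.Finite K D.H0 := by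
  obtain ⟨T⟩ := D.nonempty_splitComplex
  exact Module.Finite.equiv T.kerEquiv.symm

theorem LineData.finite_H1 {K : Type u} [Field K] [Algebra k K] (D : LineData m K) :
    Module.Finite K D.H1 := by
  obtain ⟨T⟩ := D.nonempty_splitComplex
  exact Module.Finite.equiv T.cokerEquiv.symm

/-- The Euler characteristic in terms of any split complex. -/
theorem LineData.euler_eq_of_splitComplex {K : Type u} [Field K] [Algebra k K] (D : LineData m K)
    (T : SplitComplex D.cechLin) :
    D.euler = (Module.finrank K T.K : ℤ) - Module.finrank K T.F := by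
  rw [LineData.euler, T.kerEquiv.finrank_eq, T.cokerEquiv.finrank_eq,
    finrank_ker_sub_finrank_coker]

section BaseChange

variable {A' : Type u} [CommRing A'] [Algebra k A'] [Algebra A A'] [IsScalarTower k A A']
variable {D : LineData m A} {E : LineData m A'}

/-- The split complex of a base change is the extension of scalars of that of the source. -/
theorem LineData.acyclic_iff_baseChange (T : SplitComplex D.cechLin)
    (h : D.IsBaseChangeData (IsScalarTower.toAlgHom k A A') E) :
    E.Acyclic ↔ Function.Bijective (T.δ.baseChange A') := by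
  obtain ⟨eP, eM, hc⟩ := LineData.exists_cechLin_baseChange h
  exact ((T.baseChange A').ofEquiv eP eM hc).bijective_iff

theorem LineData.euler_eq_baseChange {K : Type u} [Field K] [Algebra k K] [Algebra A K]
    [IsScalarTower k A K] {E : LineData m K} (T : SplitComplex D.cechLin)
    (h : D.IsBaseChangeData (IsScalarTower.toAlgHom k A K) E) :
    E.euler = (Module.finrank K (K ⊗[A] T.K) : ℤ) - Module.finrank K (K ⊗[A] T.F) := by
  obtain ⟨eP, eM, hc⟩ := LineData.exists_cechLin_baseChange h
  exact E.euler_eq_of_splitComplex ((T.baseChange K).ofEquiv eP eM hc)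

theorem Cl.map_acyclic_iff (T : SplitComplex D.cechLin) :
    (Cl.map (IsScalarTower.toAlgHom k A A') (Cl.mk D)).Acyclic ↔
      Function.Bijective (T.δ.baseChange A') := by
  obtain ⟨E, hE⟩ := LineData.exists_isBaseChangeData (IsScalarTower.toAlgHom k A A') D
  rw [Cl.map_mk _ hE, Cl.acyclic_mk, LineData.acyclic_iff_baseChange T hE]

theorem Cl.euler_map_eq {K : Type u} [Field K] [Algebra k K] [Algebra A K]
    [IsScalarTower k A K] (T : SplitComplex D.cechLin) :
    (Cl.map (IsScalarTower.toAlgHom k A K) (Cl.mk D)).euler =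
      (Module.finrank K (K ⊗[A] T.K) : ℤ) - Module.finrank K (K ⊗[A] T.F) := by
  obtain ⟨E, hE⟩ := LineData.exists_isBaseChangeData (IsScalarTower.toAlgHom k A K) D
  rw [Cl.map_mk _ hE, Cl.euler_mk, LineData.euler_eq_baseChange T hE]

end BaseChange

/-- Acyclicity is preserved by base change. -/
theorem Cl.Acyclic.map {A' : Type u} [CommRing A'] [Algebra k A'] (φ : A →ₐ[k] A') {x : Cl m A}
    (hx : x.Acyclic) : (Cl.map φ x).Acyclic := by
  obtain ⟨D, rfl⟩ := Cl.mk_surjective x
  obtain ⟨T⟩ := D.nonempty_splitComplex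
  let := φ.toRingHom.toAlgebra
  have : IsScalarTower k A A' := IsScalarTower.of_algebraMap_eq fun c => (φ.commutes c).symm
  refine (Cl.map_acyclic_iff (A' := A') T).mpr ?_
  exact (LinearEquiv.baseChange A A' _ _
    (LinearEquiv.ofBijective T.δ (T.bijective_iff.mp hx))).bijective

/-- Acyclicity is tested on geometric fibres. -/
theorem Cl.acyclic_of_fibres (x : Cl m A)
    (h : ∀ (K : Type u) [Field K] [IsAlgClosed K] [Algebra k K] (φ : A →ₐ[k] K),
      (Cl.map φ x).Acyclic) : x.Acyclic := by
  obtain ⟨D, rfl⟩ := Cl.mk_surjective x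
  obtain ⟨T⟩ := D.nonempty_splitComplex
  refine T.bijective_iff.mpr (bijective_of_geometricFibres T.δ fun L _ _ _ => ?_)
  let : Algebra k L := ((algebraMap A L).comp (algebraMap k A)).toAlgebra
  have : IsScalarTower k A L := IsScalarTower.of_algebraMap_eq fun _ => rfl
  exact (Cl.map_acyclic_iff T).mp (h L (IsScalarTower.toAlgHom k A L))

/-- The acyclic locus is open. -/
theorem Cl.exists_away_acyclic (x : Cl m A) (K : Type u) [Field K] [Algebra k K] (φ : A →ₐ[k] K)
    (h : (Cl.map φ x).Acyclic) :
    ∃ f : A, φ f ≠ 0 ∧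
      (Cl.map (IsScalarTower.toAlgHom k A (Localization.Away f)) x).Acyclic := by
  obtain ⟨D, rfl⟩ := Cl.mk_surjective x
  obtain ⟨T⟩ := D.nonempty_splitComplex
  let := φ.toRingHom.toAlgebra
  have : IsScalarTower k A K := IsScalarTower.of_algebraMap_eq fun c => (φ.commutes c).symm
  obtain ⟨f, hf, hbij⟩ := exists_bijective_away K T.δ ((Cl.map_acyclic_iff (A' := K) T).mp h)
  exact ⟨f, hf, (Cl.map_acyclic_iff T).mpr hbij⟩

/-- The Euler characteristic is locally constant on the base. -/
theorem Cl.exists_away_euler (x : Cl m A) (K : Type u) [Field K] [Algebra k K] (φ : A →ₐ[k] K) :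
    ∃ f : A, φ f ≠ 0 ∧ ∀ (K' : Type u) [Field K'] [Algebra k K'] (ψ : A →ₐ[k] K'),
      ψ f ≠ 0 → (Cl.map ψ x).euler = (Cl.map φ x).euler := by
  obtain ⟨D, rfl⟩ := Cl.mk_surjective x
  obtain ⟨T⟩ := D.nonempty_splitComplex
  have heul : ∀ (L : Type u) [Field L] [Algebra k L] (χ : A →ₐ[k] L),
      (Cl.map χ (Cl.mk D)).euler =
        (Module.rankAtStalk T.K (⟨RingHom.ker χ, RingHom.ker_isPrime _⟩ : PrimeSpectrum A) : ℤ) -
          Module.finrank A T.F := by
    intro L _ _ χ
    let := χ.toRingHom.toAlgebra
    have : IsScalarTower k A L := IsScalarTower.of_algebraMap_eq fun c => (χ.commutes c).symm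
    have : Nontrivial A := χ.toRingHom.domain_nontrivial
    have h := rankAtStalk_eq_finrank_fibre (A := A) (K := T.K) L
    refine (Cl.euler_map_eq (K := L) T).trans ?_
    rw [← h, Module.finrank_baseChange]
    rfl
  let p : PrimeSpectrum A := ⟨RingHom.ker φ, RingHom.ker_isPrime _⟩
  have : Module.FinitePresentation A T.K := Module.finitePresentation_of_projective A T.K
  obtain ⟨_, ⟨f, rfl⟩, hpf, hf⟩ :=
    PrimeSpectrum.isTopologicalBasis_basic_opens.exists_subset_of_mem_open
      (show p ∈ {q : PrimeSpectrum A | Module.rankAtStalk T.K q = Module.rankAtStalk T.K p}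
        from rfl) (Module.isLocallyConstant_rankAtStalk.isOpen_fiber _)
  refine ⟨f, hpf, fun K' _ _ ψ hψ => ?_⟩
  rw [heul K' ψ, heul K φ]
  exact congrArg (fun r : ℕ => (r : ℤ) - Module.finrank A T.F)
    (hf (show (⟨RingHom.ker ψ, RingHom.ker_isPrime _⟩ : PrimeSpectrum A) ∈
      (PrimeSpectrum.basicOpen f : Set (PrimeSpectrum A)) from hψ))

/-- The Euler characteristic is unchanged by an extension of fields. -/
theorem Cl.euler_map_field {K K' : Type u} [Field K] [Algebra k K] [Field K'] [Algebra k K']
    (φ : K →ₐ[k] K') (x : Cl m K) : (Cl.map φ x).euler = x.euler := by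
  obtain ⟨D, rfl⟩ := Cl.mk_surjective x
  obtain ⟨T⟩ := D.nonempty_splitComplex
  let := φ.toRingHom.toAlgebra
  have : IsScalarTower k K K' := IsScalarTower.of_algebraMap_eq fun c => (φ.commutes c).symm
  refine (Cl.euler_map_eq (A := K) (K := K') T).trans ?_
  rw [Cl.euler_mk, D.euler_eq_of_splitComplex T, Module.finrank_baseChange,
    Module.finrank_baseChange]

/-- The only functions on the curve over `A` are constants. -/
theorem CurveModel.existsUnique_const (A : Type u) [CommRing A] [Algebra k A]
    (x0 : m.R0 A) (x1 : m.R1 A) (h : m.ι0 A x0 = m.ι1 A x1) :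
    ∃! a : A, x0 = algebraMap A (m.R0 A) a := by
  obtain ⟨a, ha, -⟩ := m.exists_const A x0 x1 h
  exact ⟨a, ha, fun b hb => m.algebraMap_R0_injective A (hb.symm.trans ha)⟩

/-- The genus of the model. -/
noncomputable def CurveModel.genus (m : CurveModel k) : ℕ :=
  Module.finrank k (LineData.trivialData (m := m) (A := k)).H1

theorem LineData.finrank_H0_trivialData :
    Module.finrank k (LineData.trivialData (m := m) (A := k)).H0 = 1 := by
  let D := LineData.trivialData (m := m) (A := k)
  let f : k →ₗ[k] D.H0 := LinearMap.toSpanSingleton k D.H0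
    ⟨((1 : m.R0 k), (1 : m.R1 k)), by
      change m.ι0 k 1 - m.ι1 k 1 = 0
      rw [map_one, map_one, sub_self]⟩
  have hf : Function.Bijective f := by
    constructor
    · intro a b hab
      apply m.algebraMap_R0_injective k
      have h : a • (1 : m.R0 k) = b • (1 : m.R0 k) := congrArg (fun z : D.H0 => z.1.1) hab
      rwa [Algebra.algebraMap_eq_smul_one, Algebra.algebraMap_eq_smul_one]
    · rintro ⟨⟨x0, x1⟩, hx⟩
      obtain ⟨a, ha0, ha1⟩ := m.exists_const k x0 x1 (sub_eq_zero.mp hx)
      subst ha0 ha1
      refine ⟨a, Subtype.ext (Prod.ext ?_ ?_)⟩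
      · exact (Algebra.algebraMap_eq_smul_one (A := m.R0 k) a).symm
      · exact (Algebra.algebraMap_eq_smul_one (A := m.R1 k) a).symm
  rw [← (LinearEquiv.ofBijective f hf).finrank_eq, Module.finrank_self]

theorem Cl.euler_one (K : Type u) [Field K] [Algebra k K] :
    (1 : Cl m K).euler = 1 - (m.genus : ℤ) := by
  rw [← map_one (Cl.map (m := m) (Algebra.ofId k K)), Cl.euler_map_field]
  change (LineData.trivialData (m := m) (A := k)).euler = _
  rw [LineData.euler, CurveModel.genus, LineData.finrank_H0_trivialData, Nat.cast_one]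

end Fermat.Agent.Jac
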