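import Fermat.Agent.Jac.Cut.Const
import Fermat.Agent.Jac.Cut.Abel
import Fermat.Agent.Jac.Cut.AlgEquiv

/-!
# The cut, the sheaf property and the map from the curve

The results of `Cut/` in the form used by the assembly of the Jacobian.
-/

set_option autoImplicit false

universe u

open CategoryTheory CategoryTheory.Limits AlgebraicGeometry AlgebraicGeometry.RelPicard
  NeronModelInfra
open scoped TensorProduct

namespace Fermat.Agent.Jac

variable {k : Type u} [Field k] {m : CurveModel k} {C : Scheme.{u}}
  {c : C ⟶ Spec (CommRingCat.of k)}
  {ε : SchemeHomOver (𝟙 (Spec (CommRingCat.of k))) c} {G : m.Geo c ε}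

/-- Functions on the curve over a test scheme come from the test scheme. -/
theorem constFunctions_of_geo (G : m.Geo c ε) : ConstFunctions c := by
  exact constFunctions_of_charts G

/-- Rigidified classes of degree zero form a Zariski sheaf. -/
theorem picZeroFun_isSheaf (d : G.Dictionary) : (picZeroFun m).IsSheaf := by
  exact picZeroFun_isSheaf_of_const (constFunctions_of_geo G) d

/-- A member of the cut has degree zero on geometric fibres. -/
theorem degZero_of_fibrewiseAlgEquivZero (d : G.Dictionary) (A : Type u) [CommRing A]
    [Algebra k A] (M : RigidifiedLineBundle c ε (specTo k A)) (h : FibrewiseAlgEquivZero M) :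
    (d.cls A M.L M.isInvertible).DegZero := by
  exact degZero_of_fibrewise d A M h

/-- The map from the curve to a scheme representing degree zero classes, with its effect on
points. -/
theorem exists_abel_map (d : G.Dictionary) [GeometricallyIntegral c]
    (R : (picZeroFun m).RepScheme) :
    ∃ ψ : SchemeHomOver c R.toBase,
      ∀ (K : Type u) [Field K] [IsAlgClosed K] [Algebra k K] (v : (picZeroFun m).obj K),
        ∃ p : Fin m.genus → SchemeHomOver (specTo k K) c,
          v = ∏ i, R.pts K ⟨(p i).1 ≫ ψ.1, by rw [Category.assoc, ψ.2, (p i).2]⟩ := by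
  exact exists_abel_map_of_sheaf G (picZeroFun_isSheaf d) R

/-- A bundle on the representing scheme that restricts on a geometrically integral family to all
classes of degree zero makes degree zero bundles algebraically equivalent to zero. -/
theorem fibrewiseAlgEquivZero_of_degZero (d : G.Dictionary) (R : (picZeroFun m).RepScheme)
    (P : RigidifiedLineBundle c ε R.toBase)
    (hP : ∀ (A : Type u) [CommRing A] [Algebra k A]
      (g : SchemeHomOver (specTo k A) R.toBase),
      d.cls A (P.pullbackAlong g).L (P.pullbackAlong g).isInvertible = (R.pts A g).1)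
    {Y : Scheme.{u}} (y : Y ⟶ Spec (CommRingCat.of k)) [IsProper y] [GeometricallyIntegral y]
    (Φ : SchemeHomOver y R.toBase)
    (hΦ : ∀ (K : Type u) [Field K] [IsAlgClosed K] [Algebra k K]
      (v : SchemeHomOver (specTo k K) R.toBase),
      ∃ q : SchemeHomOver (specTo k K) y, q.1 ≫ Φ.1 = v.1) :
    FibrewiseAlgEquivZero P := by
  refine fibrewise_of_family R d P (fun K _ _ _ => ?_) y Φ hΦ
  rw [hP, Equiv.apply_symm_apply]
  rfl

end Fermat.Agent.Jac
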