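import Fermat.Agent.Jac.Descent.Glue
import Fermat.Agent.Jac.Descent.Rigidified

/-!
# Rigidified line bundles form a Zariski sheaf

The hypothesis is that functions on `C × U` are the functions on `U`, for every open `U` of a
test scheme.

With it an isomorphism of rigidified line bundles can be normalised along the section in
exactly one way, so isomorphisms on an open cover glue (`rigidified_ext`), and the normalised
isomorphisms on overlaps satisfy the cocycle condition, so objects glue (`rigidified_glue`).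
-/

set_option autoImplicit false

universe u

open CategoryTheory CategoryTheory.Limits AlgebraicGeometry AlgebraicGeometry.RelPicard
  NeronModelInfra

namespace Fermat.Agent.Jac

variable {R : Type u} [CommRing R] {C : Scheme.{u}}

/-- The only functions on `C × U` are the functions on `U`. -/
def ConstFunctions (c : C ⟶ Spec (CommRingCat.of R)) : Prop :=
  ∀ {T : Scheme.{u}} (t : T ⟶ Spec (CommRingCat.of R)) (U : T.Opens),
    Function.Bijective ((pullback.snd c t).app U).hom

variable {c : C ⟶ Spec (CommRingCat.of R)}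
  {ε : SchemeHomOver (𝟙 (Spec (CommRingCat.of R))) c}

/-- The inclusion of an open of a test scheme. -/
noncomputable def opensOver {T : Scheme.{u}} (t : T ⟶ Spec (CommRingCat.of R)) (U : T.Opens) :
    SchemeHomOver (U.ι ≫ t) t :=
  ⟨U.ι, rfl⟩

namespace Descent

theorem rigSection_snd {T : Scheme.{u}} (t : T ⟶ Spec (CommRingCat.of R)) :
    rigSection c t ε ≫ pullback.snd c t = 𝟙 T :=
  pullback.lift_snd _ _ _

theorem isPullback_baseChangeSnd {T T' : Scheme.{u}} {t : T ⟶ Spec (CommRingCat.of R)}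
    {t' : T' ⟶ Spec (CommRingCat.of R)} (ψ : SchemeHomOver t' t) :
    IsPullback (baseChangeSnd c ψ) (pullback.snd c t') (pullback.snd c t) ψ.1 := by
  refine IsPullback.of_right (t := IsPullback.of_hasPullback c t) ?_ ?_
  · have h1 : baseChangeSnd c ψ ≫ pullback.fst c t = pullback.fst c t' := by
      simp only [baseChangeSnd, pullback.lift_fst, Category.comp_id]
    rw [h1, ψ.2]
    exact IsPullback.of_hasPullback c t'
  · simp only [baseChangeSnd, pullback.lift_snd]

theorem isOpenImmersion_baseChangeSnd {T T' : Scheme.{u}} {t : T ⟶ Spec (CommRingCat.of R)}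
    {t' : T' ⟶ Spec (CommRingCat.of R)} (ψ : SchemeHomOver t' t) [IsOpenImmersion ψ.1] :
    IsOpenImmersion (baseChangeSnd c ψ) :=
  MorphismProperty.of_isPullback (P := @IsOpenImmersion) (isPullback_baseChangeSnd ψ).flip
    inferInstance

theorem opensRange_baseChangeSnd {T T' : Scheme.{u}} {t : T ⟶ Spec (CommRingCat.of R)}
    {t' : T' ⟶ Spec (CommRingCat.of R)} (ψ : SchemeHomOver t' t) [IsOpenImmersion ψ.1]
    [IsOpenImmersion (baseChangeSnd c ψ)] :
    (baseChangeSnd c ψ).opensRange = pullback.snd c t ⁻¹ᵁ ψ.1.opensRange := by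
  have h := (isPullback_baseChangeSnd (c := c) ψ).flip
  rw [← Scheme.Hom.opensRange_pullbackSnd ψ.1 (pullback.snd c t)]
  apply TopologicalSpace.Opens.ext
  rw [Scheme.Hom.coe_opensRange, Scheme.Hom.coe_opensRange, ← h.isoPullback_hom_snd,
    Scheme.Hom.comp_base, TopCat.coe_comp, Set.range_comp,
    Set.range_eq_univ.mpr h.isoPullback.hom.surjective, Set.image_univ]

instance {T : Scheme.{u}} (t : T ⟶ Spec (CommRingCat.of R)) (U : T.Opens) :
    IsOpenImmersion (opensOver t U).1 :=
  inferInstanceAs (IsOpenImmersion U.ι)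

instance {T : Scheme.{u}} (t : T ⟶ Spec (CommRingCat.of R)) (U : T.Opens) :
    IsOpenImmersion (baseChangeSnd c (opensOver t U)) :=
  isOpenImmersion_baseChangeSnd _

theorem opensRange_opensOver {T : Scheme.{u}} (t : T ⟶ Spec (CommRingCat.of R)) (U : T.Opens) :
    (baseChangeSnd c (opensOver t U)).opensRange = pullback.snd c t ⁻¹ᵁ U := by
  rw [opensRange_baseChangeSnd]
  exact congrArg (pullback.snd c t ⁻¹ᵁ ·) U.opensRange_ι

end Descent

open Descent

/-- Rigidified bundles which are locally isomorphic on the base are isomorphic. -/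
theorem rigidified_ext (hc : ConstFunctions c) {T : Scheme.{u}}
    (t : T ⟶ Spec (CommRingCat.of R)) {ι : Type u} (U : ι → T.Opens) (hU : ⨆ i, U i = ⊤)
    (M M' : RigidifiedLineBundle c ε t)
    (h : ∀ i, Nonempty ((M.pullbackAlong (opensOver t (U i))).L ≅
      (M'.pullbackAlong (opensOver t (U i))).L)) :
    Nonempty (M.L ≅ M'.L) := by
  let p := pullback.snd c t
  let s := rigSection c t ε
  have hsp : s ≫ p = 𝟙 T := rigSection_snd t
  let P : Piece p s ⊤ := pieceOfGlobal M.L M.isInvertible M.rigidified.some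
  let Q : Piece p s ⊤ := pieceOfGlobal M'.L M'.isInvertible M'.rigidified.some
  have loc : ∀ i, ∃ φ : LocHom P.A Q.A (p ⁻¹ᵁ U i), φ.Bij ∧ Normal P Q φ := by
    intro i
    let g := baseChangeSnd c (opensOver t (U i))
    let e : M.L.restrict g ≅ M'.L.restrict g :=
      (Scheme.Modules.restrictFunctorIsoPullback g).app M.L ≪≫ (h i).some ≪≫
        ((Scheme.Modules.restrictFunctorIsoPullback g).app M'.L).symm
    have hr : p ⁻¹ᵁ U i ≤ g.opensRange := (opensRange_opensOver t (U i)).ge
    exact exists_normal hsp (hc t) (P := P) (Q := Q) le_top le_top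
      ((LocHom.ofRestrict g e.hom).res hr) ((LocHom.bij_ofRestrict g e.hom).res hr)
  choose φ hφb hφn using loc
  have hcov : (⊤ : (pullback c t).Opens) ≤ ⨆ i, p ⁻¹ᵁ U i := by
    intro z _
    obtain ⟨i, hi⟩ := TopologicalSpace.Opens.mem_iSup.mp (hU.ge (Set.mem_univ (p z)))
    exact TopologicalSpace.Opens.mem_iSup.mpr ⟨i, hi⟩
  obtain ⟨Φ, hΦ⟩ := LocHom.exists_glue (Ω := ⊤) _ hcov φ (by
    intro k l V hk hl x
    have := normal_unique hsp (hc t) (P := P) (Q := Q) (W := U k ⊓ U l) le_top le_top
      ((hφn k).res (inf_le_left : U k ⊓ U l ≤ U k))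
      ((hφb l).res (p.preimage_mono inf_le_right))
      ((hφn l).res (inf_le_right : U k ⊓ U l ≤ U l))
    exact congrArg (fun F : LocHom P.A Q.A _ => F.app V (le_inf hk hl) x) this)
  have hb : Φ.Bij := LocHom.bij_of_locally Φ _ hcov fun k V hV hk => by
    rw [AddMonoidHom.ext (hΦ k V hV hk)]
    exact hφb k V hk
  have := LocHom.isIso_toHom hb
  exact ⟨@asIso _ _ M.L M'.L Φ.toHom this⟩

/-- Rigidified bundles on an open cover of the base, isomorphic on overlaps, glue. -/
theorem rigidified_glue (hc : ConstFunctions c) {T : Scheme.{u}}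
    (t : T ⟶ Spec (CommRingCat.of R)) {ι : Type u} (U : ι → T.Opens) (hU : ⨆ i, U i = ⊤)
    (M : ∀ i, RigidifiedLineBundle c ε ((U i).ι ≫ t))
    (h : ∀ (i j : ι) (V : Scheme.{u}) (v : V ⟶ Spec (CommRingCat.of R))
      (a : SchemeHomOver v ((U i).ι ≫ t)) (b : SchemeHomOver v ((U j).ι ≫ t)),
      a.1 ≫ (U i).ι = b.1 ≫ (U j).ι →
      Nonempty (((M i).pullbackAlong a).L ≅ ((M j).pullbackAlong b).L)) :
    ∃ N : RigidifiedLineBundle c ε t,
      ∀ i, Nonempty ((N.pullbackAlong (opensOver t (U i))).L ≅ (M i).L) := by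
  let p := pullback.snd c t
  let s := rigSection c t ε
  have hsp : s ≫ p = 𝟙 T := rigSection_snd t
  let g := fun i => baseChangeSnd c (opensOver t (U i))
  have hP : ∀ i, ∃ P : Piece p s (U i), P.A = (Scheme.Modules.pushforward (g i)).obj (M i).L :=
    fun i => exists_piece_pushforward (g i) _ (rigSection_baseChangeSnd c ε (opensOver t (U i)))
      hsp (opensRange_opensOver t (U i)) (M i).L (M i).isInvertible (M i).rigidified.some
  choose P hP using hP
  have counit : ∀ i, Nonempty ((P i).A.restrict (g i) ≅ (M i).L) := fun i =>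
    ⟨(Scheme.Modules.restrictFunctor (g i)).mapIso (eqToIso (hP i)) ≪≫
      (asIso (Scheme.Modules.restrictAdjunction (g i)).counit).app (M i).L⟩
  have hij : ∀ i j, ∃ φ : LocHom (P i).A (P j).A (p ⁻¹ᵁ (U i ⊓ U j)), φ.Bij := by
    intro i j
    let v := (U i ⊓ U j).ι ≫ t
    let a : SchemeHomOver v ((U i).ι ≫ t) :=
      ⟨T.homOfLE inf_le_left, by simp only [v, ← Category.assoc, Scheme.homOfLE_ι]⟩
    let b : SchemeHomOver v ((U j).ι ≫ t) :=
      ⟨T.homOfLE inf_le_right, by simp only [v, ← Category.assoc, Scheme.homOfLE_ι]⟩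
    obtain ⟨e⟩ := h i j _ v a b (by simp [a, b])
    let k := baseChangeSnd c (opensOver t (U i ⊓ U j))
    have : IsOpenImmersion a.1 :=
      inferInstanceAs (IsOpenImmersion (T.homOfLE (inf_le_left : U i ⊓ U j ≤ U i)))
    have : IsOpenImmersion b.1 :=
      inferInstanceAs (IsOpenImmersion (T.homOfLE (inf_le_right : U i ⊓ U j ≤ U j)))
    have := isOpenImmersion_baseChangeSnd (c := c) a
    have := isOpenImmersion_baseChangeSnd (c := c) b
    have ha : k = baseChangeSnd c a ≫ g i := by
      rw [baseChangeSnd_comp]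
      exact congrArg (baseChangeSnd c) (Subtype.ext (T.homOfLE_ι inf_le_left).symm)
    have hb : k = baseChangeSnd c b ≫ g j := by
      rw [baseChangeSnd_comp]
      exact congrArg (baseChangeSnd c) (Subtype.ext (T.homOfLE_ι inf_le_right).symm)
    let ei : (P i).A.restrict k ≅ (Scheme.Modules.pullback (baseChangeSnd c a)).obj (M i).L :=
      (Scheme.Modules.restrictFunctorCongr ha).app (P i).A ≪≫
        (Scheme.Modules.restrictFunctorComp _ _).app (P i).A ≪≫
        (Scheme.Modules.restrictFunctor (baseChangeSnd c a)).mapIso (counit i).some ≪≫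
        (Scheme.Modules.restrictFunctorIsoPullback _).app (M i).L
    let ej : (P j).A.restrict k ≅ (Scheme.Modules.pullback (baseChangeSnd c b)).obj (M j).L :=
      (Scheme.Modules.restrictFunctorCongr hb).app (P j).A ≪≫
        (Scheme.Modules.restrictFunctorComp _ _).app (P j).A ≪≫
        (Scheme.Modules.restrictFunctor (baseChangeSnd c b)).mapIso (counit j).some ≪≫
        (Scheme.Modules.restrictFunctorIsoPullback _).app (M j).L
    let e' := ei ≪≫ e ≪≫ ej.symm
    have hr : p ⁻¹ᵁ (U i ⊓ U j) ≤ k.opensRange := (opensRange_opensOver t (U i ⊓ U j)).ge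
    exact ⟨(LocHom.ofRestrict k e'.hom).res hr, (LocHom.bij_ofRestrict k e'.hom).res hr⟩
  obtain ⟨N, hN⟩ := exists_glued_piece hsp (hc t) U hU P hij
  obtain ⟨hinv, hrig⟩ := N.rigidified
  refine ⟨⟨N.A, hinv, hrig⟩, fun i => ?_⟩
  obtain ⟨φ, hφ⟩ := hN i
  have hle : ∀ V, g i ''ᵁ V ≤ p ⁻¹ᵁ U i := fun V =>
    (LocHom.image_le_opensRange (g i) V).trans (opensRange_opensOver t (U i)).le
  have := LocHom.isIso_toRestrict (g i) hφ hle
  exact ⟨((Scheme.Modules.restrictFunctorIsoPullback (g i)).app N.A).symm ≪≫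
    asIso (φ.toRestrict (g i) hle) ≪≫ (counit i).some⟩

end Fermat.Agent.Jac
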