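import Fermat.Agent.Jac.Represent.Glued

/-!
# Representing a group functor covered by translates of an affine chart

`Represent/Basic` has the definitions, `Represent/Local` the locus of a chart,
`Represent/Glue` and `Represent/Glued` the glued scheme and its affine points.
-/

set_option autoImplicit false

universe u

open CategoryTheory AlgebraicGeometry NeronModelInfra
open scoped TensorProduct

namespace Fermat.Agent.Jac

variable {k : Type u} [Field k]

/-- A functor covered by a small family of translates of a chart is represented by a smooth
scheme. -/
theorem exists_repScheme_of_family (F : AlgFun k) (hF : F.IsSheaf) (c : F.Chart) {ι : Type u}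
    (a : ι → F.obj k)
    (hcov : ∀ (K : Type u) [Field K] [IsAlgClosed K] [Algebra k K] (x : F.obj K),
      ∃ i, c.mem K (x * F.map (Algebra.ofId k K) (a i))) :
    ∃ R : F.RepScheme, Smooth R.toBase := by
  refine ⟨{
    J := (c.glueData a).glued
    toBase := c.gluedTo a
    pts := fun A _ _ => Equiv.ofBijective _
      ⟨(c.gluedVal a hF).injective A, c.gluedVal_surjective a hF hcov A⟩
    pts_natural := fun A A' _ _ _ _ φ g => (c.gluedVal a hF).natural A A' φ g }, ?_⟩
  refine IsZariskiLocalAtSource.of_openCover (P := @Smooth) (c.glueData a).openCover fun i => ?_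
  change Smooth ((c.glueData a).ι i ≫ c.gluedTo a)
  rw [c.ι_gluedTo, specTo, HasRingHomProperty.Spec_iff (P := @Smooth)]
  exact RingHom.smooth_algebraMap.2 c.smooth

/-- The translates can be indexed by the rational values when these form a small type. -/
theorem exists_repScheme [IsAlgClosed k] (F : AlgFun k) [Small.{u} (F.obj k)] (hF : F.IsSheaf)
    (c : F.Chart) :
    ∃ R : F.RepScheme, Smooth R.toBase :=
  exists_repScheme_of_family F hF c (fun i : Shrink.{u} (F.obj k) => (equivShrink _).symm i)
    fun K _ _ _ x => by
      obtain ⟨a, ha⟩ := c.cover K x
      exact ⟨equivShrink _ a, by rwa [Equiv.symm_apply_apply]⟩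

end Fermat.Agent.Jac
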