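import Fermat.Agent.Jac.Model

/-!
# Line bundles on a two-chart curve over a test algebra

`LineData m A` describes a line bundle on the curve times `Spec A`: invertible modules on the two
charts and on the overlap, with the two restriction maps. Since all three modules are invertible,
restriction maps whose images generate are automatically localisation maps.
-/

set_option autoImplicit false

universe u

open scoped TensorProduct

namespace Fermat.Agent.Jac

variable {k : Type u} [Field k] (m : CurveModel k) (A : Type u) [CommRing A] [Algebra k A]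

/-- A line bundle on the curve over `A`, in two charts. -/
structure LineData : Type (u + 1) where
  M0 : Type u
  M1 : Type u
  M01 : Type u
  [addCommGroup0 : AddCommGroup M0]
  [addCommGroup1 : AddCommGroup M1]
  [addCommGroup01 : AddCommGroup M01]
  [module0 : Module (m.R0 A) M0]
  [module1 : Module (m.R1 A) M1]
  [module01 : Module (m.R01 A) M01]
  [moduleA0 : Module A M0]
  [moduleA1 : Module A M1]
  [moduleA01 : Module A M01]
  [tower0 : IsScalarTower A (m.R0 A) M0]
  [tower1 : IsScalarTower A (m.R1 A) M1]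
  [tower01 : IsScalarTower A (m.R01 A) M01]
  [invertible0 : Module.Invertible (m.R0 A) M0]
  [invertible1 : Module.Invertible (m.R1 A) M1]
  [invertible01 : Module.Invertible (m.R01 A) M01]
  res0 : M0 →ₛₗ[m.ι0 A] M01
  res1 : M1 →ₛₗ[m.ι1 A] M01
  span0 : Submodule.span (m.R01 A) (Set.range res0) = ⊤
  span1 : Submodule.span (m.R01 A) (Set.range res1) = ⊤

namespace LineData

attribute [instance] addCommGroup0 addCommGroup1 addCommGroup01 module0 module1 module01
  moduleA0 moduleA1 moduleA01 tower0 tower1 tower01 invertible0 invertible1 invertible01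

variable {m A}

/-- The trivial bundle. -/
noncomputable def trivialData : LineData m A where
  M0 := m.R0 A
  M1 := m.R1 A
  M01 := m.R01 A
  res0 := ⟨(m.ι0 A).toAddMonoidHom.toAddHom, fun r x => map_mul (m.ι0 A) r x⟩
  res1 := ⟨(m.ι1 A).toAddMonoidHom.toAddHom, fun r x => map_mul (m.ι1 A) r x⟩
  span0 := (Ideal.eq_top_iff_one _).mpr (Submodule.subset_span ⟨1, map_one (m.ι0 A)⟩)
  span1 := (Ideal.eq_top_iff_one _).mpr (Submodule.subset_span ⟨1, map_one (m.ι1 A)⟩)

/-- An isomorphism of line data. -/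
structure Iso (D E : LineData m A) : Type u where
  e0 : D.M0 ≃ₗ[m.R0 A] E.M0
  e1 : D.M1 ≃ₗ[m.R1 A] E.M1
  e01 : D.M01 ≃ₗ[m.R01 A] E.M01
  comm0 : ∀ x, E.res0 (e0 x) = e01 (D.res0 x)
  comm1 : ∀ x, E.res1 (e1 x) = e01 (D.res1 x)

/-- The identity isomorphism. -/
noncomputable def Iso.refl (D : LineData m A) : Iso D D :=
  ⟨LinearEquiv.refl _ _, LinearEquiv.refl _ _, LinearEquiv.refl _ _, fun _ => rfl, fun _ => rfl⟩

/-- The inverse isomorphism. -/
noncomputable def Iso.symm {D E : LineData m A} (e : Iso D E) : Iso E D where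
  e0 := e.e0.symm
  e1 := e.e1.symm
  e01 := e.e01.symm
  comm0 x := by
    apply e.e01.injective
    rw [← e.comm0, e.e0.apply_symm_apply, e.e01.apply_symm_apply]
  comm1 x := by
    apply e.e01.injective
    rw [← e.comm1, e.e1.apply_symm_apply, e.e01.apply_symm_apply]

/-- Composition of isomorphisms. -/
noncomputable def Iso.trans {D E F : LineData m A} (e : Iso D E) (f : Iso E F) : Iso D F where
  e0 := e.e0.trans f.e0
  e1 := e.e1.trans f.e1
  e01 := e.e01.trans f.e01
  comm0 x := by simp only [LinearEquiv.trans_apply, f.comm0, e.comm0]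
  comm1 x := by simp only [LinearEquiv.trans_apply, f.comm1, e.comm1]

instance isoSetoid : Setoid (LineData m A) where
  r D E := Nonempty (Iso D E)
  iseqv := ⟨fun D => ⟨Iso.refl D⟩, fun ⟨e⟩ => ⟨e.symm⟩, fun ⟨e⟩ ⟨f⟩ => ⟨e.trans f⟩⟩

/-- `E` is the base change of `D` along `φ`. -/
def IsBaseChangeData {A' : Type u} [CommRing A'] [Algebra k A'] (φ : A →ₐ[k] A')
    (D : LineData m A) (E : LineData m A') : Prop :=
  ∃ (f0 : D.M0 →ₛₗ[m.map0 φ] E.M0) (f1 : D.M1 →ₛₗ[m.map1 φ] E.M1)
    (f01 : D.M01 →ₛₗ[m.map01 φ] E.M01),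
    (∀ x, E.res0 (f0 x) = f01 (D.res0 x)) ∧ (∀ x, E.res1 (f1 x) = f01 (D.res1 x)) ∧
    Submodule.span (m.R0 A') (Set.range f0) = ⊤ ∧ Submodule.span (m.R1 A') (Set.range f1) = ⊤

/-- `F` is the tensor product of `D` and `E`. -/
def IsProduct (D E F : LineData m A) : Prop :=
  ∃ (g0 : D.M0 →ₗ[m.R0 A] E.M0 →ₗ[m.R0 A] F.M0) (g1 : D.M1 →ₗ[m.R1 A] E.M1 →ₗ[m.R1 A] F.M1)
    (g01 : D.M01 →ₗ[m.R01 A] E.M01 →ₗ[m.R01 A] F.M01),
    (∀ x y, F.res0 (g0 x y) = g01 (D.res0 x) (E.res0 y)) ∧
    (∀ x y, F.res1 (g1 x y) = g01 (D.res1 x) (E.res1 y)) ∧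
    Submodule.span (m.R0 A) (Set.range fun p : D.M0 × E.M0 => g0 p.1 p.2) = ⊤ ∧
    Submodule.span (m.R1 A) (Set.range fun p : D.M1 × E.M1 => g1 p.1 p.2) = ⊤

/-- The Cech differential. -/
noncomputable def cech (D : LineData m A) : D.M0 × D.M1 →+ D.M01 :=
  D.res0.toAddMonoidHom.comp (AddMonoidHom.fst _ _) -
    D.res1.toAddMonoidHom.comp (AddMonoidHom.snd _ _)

/-- The Cech differential is linear over `A`. -/
theorem cech_smul (D : LineData m A) (a : A) (x : D.M0 × D.M1) :
    D.cech (a • x) = a • D.cech x := by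
  have h0 : m.ι0 A (algebraMap A (m.R0 A) a) = algebraMap A (m.R01 A) a := by
    simp [CurveModel.ι0]
  have h1 : m.ι1 A (algebraMap A (m.R1 A) a) = algebraMap A (m.R01 A) a := by
    simp [CurveModel.ι1]
  have e0 : D.res0 (a • x.1) = a • D.res0 x.1 := by
    rw [← IsScalarTower.algebraMap_smul (m.R0 A) a x.1, LinearMap.map_smulₛₗ, h0,
      IsScalarTower.algebraMap_smul]
  have e1 : D.res1 (a • x.2) = a • D.res1 x.2 := by
    rw [← IsScalarTower.algebraMap_smul (m.R1 A) a x.2, LinearMap.map_smulₛₗ, h1,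
      IsScalarTower.algebraMap_smul]
  simp [cech, smul_sub, e0, e1]

/-- The Cech differential as an `A`-linear map. -/
noncomputable def cechLin (D : LineData m A) : D.M0 × D.M1 →ₗ[A] D.M01 :=
  { toFun := D.cech
    map_add' := D.cech.map_add
    map_smul' := D.cech_smul }

/-- Degree zero cohomology. -/
noncomputable abbrev H0 (D : LineData m A) : Submodule A (D.M0 × D.M1) := LinearMap.ker D.cechLin

/-- Degree one cohomology. -/
noncomputable abbrev H1 (D : LineData m A) : Type u := D.M01 ⧸ LinearMap.range D.cechLin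

/-- No cohomology. -/
def Acyclic (D : LineData m A) : Prop := Function.Bijective D.cech

/-- The Euler characteristic; only used when `A` is a field. -/
noncomputable def euler (D : LineData m A) : ℤ :=
  (Module.finrank A D.H0 : ℤ) - Module.finrank A D.H1

/-- The restriction to the marked section is trivial. -/
def RigTriv (D : LineData m A) : Prop :=
  ∃ l : D.M1 →ₛₗ[m.epsA A] A, Function.Surjective l

theorem Acyclic.of_iso {D E : LineData m A} (e : Iso D E) (h : D.Acyclic) : E.Acyclic := by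
  have hc : ∀ x : D.M0 × D.M1, E.cech (e.e0 x.1, e.e1 x.2) = e.e01 (D.cech x) := by
    intro x
    simp [cech, e.comm0, e.comm1]
  have heq : (E.cech : E.M0 × E.M1 → E.M01) =
      e.e01 ∘ D.cech ∘ fun y => (e.e0.symm y.1, e.e1.symm y.2) := by
    funext y
    simpa using hc (e.e0.symm y.1, e.e1.symm y.2)
  unfold Acyclic
  rw [heq]
  exact e.e01.bijective.comp (h.comp
    ((e.e0.symm.bijective.prodMap e.e1.symm.bijective)))

theorem RigTriv.of_iso {D E : LineData m A} (e : Iso D E) (h : D.RigTriv) : E.RigTriv := by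
  obtain ⟨l, hl⟩ := h
  exact ⟨l.comp e.e1.symm.toLinearMap, hl.comp e.e1.symm.surjective⟩

theorem euler_eq_of_iso {D E : LineData m A} (e : Iso D E) : D.euler = E.euler := by
  let f : (D.M0 × D.M1) ≃ₗ[A] E.M0 × E.M1 :=
    (e.e0.restrictScalars A).prodCongr (e.e1.restrictScalars A)
  let g : D.M01 ≃ₗ[A] E.M01 := e.e01.restrictScalars A
  have hc : ∀ x, E.cechLin (f x) = g (D.cechLin x) := by
    intro x
    simp [f, g, cechLin, cech, e.comm0, e.comm1]
  have h0 : D.H0.map f.toLinearMap = E.H0 := by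
    ext y
    obtain ⟨x, rfl⟩ := f.surjective y
    simp [H0, hc]
  have h1 : (LinearMap.range D.cechLin).map g.toLinearMap = LinearMap.range E.cechLin := by
    rw [← LinearMap.range_comp]
    have : g.toLinearMap.comp D.cechLin = E.cechLin.comp f.toLinearMap :=
      LinearMap.ext fun x => (hc x).symm
    rw [this, LinearMap.range_comp_of_range_eq_top _ f.range]
  unfold euler
  rw [(f.submoduleMap D.H0).finrank_eq, h0, (Submodule.Quotient.equiv _ _ g h1).finrank_eq]

end LineData

end Fermat.Agent.Jac
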