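import Fermat.Agent.Jac.DataOps.Basic

/-!
# Base change, products and inverses of line data

Existence and uniqueness up to isomorphism of the operations that make classes of line data
into a group functor.
-/

set_option autoImplicit false

universe u

open scoped TensorProduct

namespace Fermat.Agent.Jac

variable {k : Type u} [Field k] {m : CurveModel k} {A : Type u} [CommRing A] [Algebra k A]

namespace LineData

/-- Line data have base changes. -/
theorem exists_isBaseChangeData {A' : Type u} [CommRing A'] [Algebra k A'] (φ : A →ₐ[k] A')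
    (D : LineData m A) : ∃ E : LineData m A', D.IsBaseChangeData φ E := by
  obtain ⟨N0, _, _, _, f0, hf0⟩ := Semilin.exists_extension (m.map0 φ) D.M0
  obtain ⟨N1, _, _, _, f1, hf1⟩ := Semilin.exists_extension (m.map1 φ) D.M1
  obtain ⟨N01, _, _, _, f01, hf01⟩ := Semilin.exists_extension (m.map01 φ) D.M01
  obtain ⟨r0, hr0⟩ := Semilin.exists_lift f0 hf0 (m.ι0 A')
    (f01.toAddMonoidHom.comp D.res0.toAddMonoidHom)
    fun r x => by simp [CurveModel.map01_ι0]
  obtain ⟨r1, hr1⟩ := Semilin.exists_lift f1 hf1 (m.ι1 A')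
    (f01.toAddMonoidHom.comp D.res1.toAddMonoidHom)
    fun r x => by simp [CurveModel.map01_ι1]
  have hs0 : Submodule.span (m.R01 A') (Set.range r0) = ⊤ := by
    refine eq_top_iff.2 ((Semilin.span_comp_eq_top D.res0 f01 D.span0 hf01).symm.trans_le
      (Submodule.span_mono ?_))
    rintro _ ⟨x, rfl⟩
    exact ⟨f0 x, hr0 x⟩
  have hs1 : Submodule.span (m.R01 A') (Set.range r1) = ⊤ := by
    refine eq_top_iff.2 ((Semilin.span_comp_eq_top D.res1 f01 D.span1 hf01).symm.trans_le
      (Submodule.span_mono ?_))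
    rintro _ ⟨x, rfl⟩
    exact ⟨f1 x, hr1 x⟩
  exact ⟨ofModules r0 r1 hs0 hs1, f0, f1, f01, hr0, hr1, hf0, hf1⟩

/-- Base changes of isomorphic line data are isomorphic. -/
theorem IsBaseChangeData.unique {A' : Type u} [CommRing A'] [Algebra k A'] {φ : A →ₐ[k] A'}
    {D D' : LineData m A} {E E' : LineData m A'} (e : Iso D D') (h : D.IsBaseChangeData φ E)
    (h' : D'.IsBaseChangeData φ E') : Nonempty (Iso E E') := by
  obtain ⟨f0, f1, f01, c0, c1, s0, s1⟩ := h
  obtain ⟨f0', f1', f01', c0', c1', s0', s1'⟩ := h'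
  obtain ⟨h0, hh0⟩ := Semilin.exists_equiv f0 s0 f0' s0' e.e0
  obtain ⟨h1, hh1⟩ := Semilin.exists_equiv f1 s1 f1' s1' e.e1
  obtain ⟨h01, hh01⟩ := Semilin.exists_equiv f01 (IsBaseChangeData.span01 f0 f01 c0 s0)
    f01' (IsBaseChangeData.span01 f0' f01' c0' s0') e.e01
  refine ⟨⟨h0, h1, h01, fun x => ?_, fun x => ?_⟩⟩
  · refine Semilin.square_ext E.res0 E'.res0 h0.toLinearMap h01.toLinearMap (fun _ => rfl) s0 ?_ x
    rintro _ ⟨y, rfl⟩
    simp [hh0, c0', c0, hh01, e.comm0]
  · refine Semilin.square_ext E.res1 E'.res1 h1.toLinearMap h01.toLinearMap (fun _ => rfl) s1 ?_ x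
    rintro _ ⟨y, rfl⟩
    simp [hh1, c1', c1, hh01, e.comm1]

/-- Line data have products. -/
theorem exists_isProduct (D E : LineData m A) : ∃ F : LineData m A, IsProduct D E F := by
  let t := TensorProduct.mk (m.R01 A) D.M01 E.M01
  have hs : ∀ {R : Type u} [CommRing R] {M N : Type u} [AddCommGroup M] [Module R M]
      [AddCommGroup N] [Module R N],
      Submodule.span R (Set.range fun p : M × N => TensorProduct.mk R M N p.1 p.2) = ⊤ := by
    intro R _ M N _ _ _ _
    refine eq_top_iff.2 ((TensorProduct.span_tmul_eq_top R M N).symm.trans_le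
      (Submodule.span_mono ?_))
    rintro _ ⟨x, y, rfl⟩
    exact ⟨(x, y), rfl⟩
  obtain ⟨r0, hr0⟩ := Semilin.exists_lift₂ (TensorProduct.mk (m.R0 A) D.M0 E.M0) hs (m.ι0 A)
    (AddMonoidHom.mk' (fun x => (t (D.res0 x)).toAddMonoidHom.comp E.res0.toAddMonoidHom)
      fun a b => by ext y; simp)
    (fun r x y => by simp) (fun r x y => by simp)
  obtain ⟨r1, hr1⟩ := Semilin.exists_lift₂ (TensorProduct.mk (m.R1 A) D.M1 E.M1) hs (m.ι1 A)
    (AddMonoidHom.mk' (fun x => (t (D.res1 x)).toAddMonoidHom.comp E.res1.toAddMonoidHom)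
      fun a b => by ext y; simp)
    (fun r x y => by simp) (fun r x y => by simp)
  have hs0 : Submodule.span (m.R01 A) (Set.range r0) = ⊤ := by
    refine eq_top_iff.2 ((Semilin.span_image2_eq_top t hs D.span0 E.span0).symm.trans_le
      (Submodule.span_mono ?_))
    rintro _ ⟨_, ⟨x, rfl⟩, _, ⟨y, rfl⟩, rfl⟩
    exact ⟨x ⊗ₜ y, hr0 x y⟩
  have hs1 : Submodule.span (m.R01 A) (Set.range r1) = ⊤ := by
    refine eq_top_iff.2 ((Semilin.span_image2_eq_top t hs D.span1 E.span1).symm.trans_le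
      (Submodule.span_mono ?_))
    rintro _ ⟨_, ⟨x, rfl⟩, _, ⟨y, rfl⟩, rfl⟩
    exact ⟨x ⊗ₜ y, hr1 x y⟩
  exact ⟨ofModules r0 r1 hs0 hs1, TensorProduct.mk _ _ _, TensorProduct.mk _ _ _, t,
    hr0, hr1, hs, hs⟩

/-- Products of isomorphic line data are isomorphic. -/
theorem IsProduct.unique {D D' E E' F F' : LineData m A} (d : Iso D D') (e : Iso E E')
    (h : IsProduct D E F) (h' : IsProduct D' E' F') : Nonempty (Iso F F') := by
  obtain ⟨g0, g1, g01, c0, c1, s0, s1⟩ := h
  obtain ⟨g0', g1', g01', c0', c1', s0', s1'⟩ := h'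
  obtain ⟨h0, hh0⟩ := Semilin.exists_equiv₂ g0 s0 g0' s0' d.e0 e.e0
  obtain ⟨h1, hh1⟩ := Semilin.exists_equiv₂ g1 s1 g1' s1' d.e1 e.e1
  obtain ⟨h01, hh01⟩ := Semilin.exists_equiv₂ g01 (IsProduct.span01 g0 g01 c0 s0)
    g01' (IsProduct.span01 g0' g01' c0' s0') d.e01 e.e01
  refine ⟨⟨h0, h1, h01, fun x => ?_, fun x => ?_⟩⟩
  · refine Semilin.square_ext F.res0 F'.res0 h0.toLinearMap h01.toLinearMap (fun _ => rfl) s0 ?_ x
    rintro _ ⟨p, rfl⟩
    simp [hh0, c0', c0, hh01, d.comm0, e.comm0]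
  · refine Semilin.square_ext F.res1 F'.res1 h1.toLinearMap h01.toLinearMap (fun _ => rfl) s1 ?_ x
    rintro _ ⟨p, rfl⟩
    simp [hh1, c1', c1, hh01, d.comm1, e.comm1]

/-- Line data have inverses. -/
theorem exists_inverse (D : LineData m A) : ∃ E : LineData m A, IsProduct D E trivialData := by
  obtain ⟨r0, hr0, hs0⟩ := Semilin.exists_dual D.res0 D.span0
  obtain ⟨r1, hr1, hs1⟩ := Semilin.exists_dual D.res1 D.span1
  have hs : ∀ {R : Type u} [CommRing R] {M : Type u} [AddCommGroup M] [Module R M]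
      [Module.Invertible R M], Submodule.span R
        (Set.range fun p : M × Module.Dual R M => Module.Dual.eval R M p.1 p.2) = ⊤ := by
    intro R _ M _ _ _
    refine eq_top_iff.2 fun r _ => ?_
    obtain ⟨z, rfl⟩ := (Module.Invertible.bijective (R := R) (M := M)).surjective r
    induction z using TensorProduct.induction_on with
    | zero => simp
    | add a b ha hb => rw [map_add]; exact add_mem (ha trivial) (hb trivial)
    | tmul ψ x => exact Submodule.subset_span ⟨(x, ψ), by simp [contractLeft_apply]⟩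
  exact ⟨ofModules r0 r1 hs0 hs1, Module.Dual.eval _ _, Module.Dual.eval _ _, Module.Dual.eval _ _,
    fun x ψ => (hr0 ψ x).symm, fun x ψ => (hr1 ψ x).symm, hs, hs⟩

end LineData

end Fermat.Agent.Jac
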