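import Fermat.Agent.Jac.DictAux.ToSheaf
import Fermat.Agent.Jac.DictAux.Rig

/-!
# Invertible modules on the curve over an affine base and line data

`CurveModel.Geo.exists_dictionary` identifies the isomorphism classes of the former with the
classes of the latter, compatibly with pullback and rigidification.
-/

set_option autoImplicit false

universe u

open CategoryTheory CategoryTheory.Limits AlgebraicGeometry AlgebraicGeometry.RelPicard
  NeronModelInfra
open scoped TensorProduct

namespace Fermat.Agent.Jac

variable {k : Type u} [Field k] {m : CurveModel k} {C : Scheme.{u}}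
  {c : C ⟶ Spec (CommRingCat.of k)} {ε : SchemeHomOver (𝟙 (Spec (CommRingCat.of k))) c}

/-- The comparison between invertible modules on `C × Spec A` and classes of line data. -/
structure CurveModel.Geo.Dictionary (G : m.Geo c ε) where
  cls : ∀ (A : Type u) [CommRing A] [Algebra k A] (L : (pullback c (specTo k A)).Modules),
    Scheme.Modules.IsInvertible L → Cl m A
  cls_eq_iff : ∀ (A : Type u) [CommRing A] [Algebra k A]
    (L L' : (pullback c (specTo k A)).Modules) (hL : Scheme.Modules.IsInvertible L)
    (hL' : Scheme.Modules.IsInvertible L'),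
    cls A L hL = cls A L' hL' ↔ Nonempty (L ≅ L')
  cls_surjective : ∀ (A : Type u) [CommRing A] [Algebra k A] (x : Cl m A),
    ∃ (L : (pullback c (specTo k A)).Modules) (hL : Scheme.Modules.IsInvertible L), cls A L hL = x
  cls_unit : ∀ (A : Type u) [CommRing A] [Algebra k A],
    cls A (SheafOfModules.unit (pullback c (specTo k A)).ringCatSheaf)
      (Scheme.Modules.isInvertible_unit _) = 1
  cls_pullback : ∀ (A A' : Type u) [CommRing A] [Algebra k A] [CommRing A'] [Algebra k A']
    (φ : A →ₐ[k] A') (L : (pullback c (specTo k A)).Modules)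
    (hL : Scheme.Modules.IsInvertible L),
    cls A' ((Scheme.Modules.pullback (baseChangeSnd c (specMapOver φ))).obj L) (hL.pullback _) =
      Cl.map φ (cls A L hL)
  rigTriv_iff : ∀ (A : Type u) [CommRing A] [Algebra k A]
    (L : (pullback c (specTo k A)).Modules) (hL : Scheme.Modules.IsInvertible L),
    (cls A L hL).RigTriv ↔
      Nonempty ((Scheme.Modules.pullback (rigSection c (specTo k A) ε)).obj L ≅
        SheafOfModules.unit (Spec (CommRingCat.of A)).ringCatSheaf)

/-- **Classes of invertible modules on the curve over an affine base are classes of line data.** -/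
theorem CurveModel.Geo.exists_dictionary (G : m.Geo c ε) : Nonempty G.Dictionary := by
  refine ⟨{
    cls := fun A _ _ L hL => Cl.mk (GeoCharts.toData A G L hL)
    cls_eq_iff := fun A _ _ L L' hL hL' => Cl.mk_eq_mk.trans ⟨?_, fun ⟨e⟩ =>
      GeoCharts.nonempty_iso_toData A G L hL hL' e⟩
    cls_surjective := fun A _ _ x => ?_
    cls_unit := fun A _ _ => (Cl.mk_eq_mk.mpr ?_)
    cls_pullback := fun A A' _ _ _ _ φ L hL =>
      (Cl.map_mk φ (GeoCharts.isBaseChangeData_toData A G L φ hL)).symm
    rigTriv_iff := fun A _ _ L hL => GeoCharts.rigTriv_toData_iff A G L hL }⟩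
  · rintro ⟨e⟩
    obtain ⟨a⟩ := GeoCharts.nonempty_iso_glue A G _ hL e
    obtain ⟨b⟩ := GeoCharts.nonempty_iso_glue A G _ hL' (LineData.Iso.refl _)
    exact ⟨a ≪≫ b.symm⟩
  · obtain ⟨D, rfl⟩ := Cl.mk_surjective x
    exact ⟨GeoCharts.glue A G D, GeoCharts.isInvertible_glue A G D,
      Cl.mk_eq_mk.mpr (GeoCharts.nonempty_iso_toData_glue A G D)⟩
  · exact ⟨(GeoCharts.nonempty_iso_toData_unit A G).some.symm⟩

end Fermat.Agent.Jac
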