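import Fermat.Agent.Jac.Field.Twist

/-!
# Line data over algebraically closed fields

Additivity of the Euler characteristic, effective representatives and twists in general position.
-/

set_option autoImplicit false

universe u

open scoped TensorProduct

namespace Fermat.Agent.Jac

variable {k : Type u} [Field k] [IsAlgClosed k] {m : CurveModel k}
variable {K : Type u} [Field K] [IsAlgClosed K] [Algebra k K]

omit [IsAlgClosed k] [IsAlgClosed K] in
theorem Cl.euler_mul_point (x : Cl m K) (p : ChartPoint m K) :
    (x * Cl.point p).euler = x.euler - 1 := by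
  obtain ⟨D, rfl⟩ := Cl.mk_surjective x
  obtain ⟨F, hF, he, -⟩ := D.exists_twist_point p
  rw [← hF]
  exact he

omit [IsAlgClosed k] [IsAlgClosed K] in
theorem Cl.euler_mul_point_pow (x : Cl m K) (p : ChartPoint m K) (n : ℕ) :
    (x * Cl.point p ^ n).euler = x.euler - n := by
  induction n with
  | zero => simp
  | succ n ih =>
    rw [pow_succ, ← mul_assoc, Cl.euler_mul_point, ih]
    push_cast
    ring

omit [IsAlgClosed k] [IsAlgClosed K] in
theorem Cl.euler_mul_point_inv_prod (x : Cl m K) (l : List (ChartPoint m K)) :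
    (x * (l.map fun p => (Cl.point p)⁻¹).prod).euler = x.euler + l.length := by
  induction l generalizing x with
  | nil => simp
  | cons p l ih =>
    rw [List.map_cons, List.prod_cons, ← mul_assoc, ih, List.length_cons]
    have h := Cl.euler_mul_point (x * (Cl.point p)⁻¹) p
    rw [inv_mul_cancel_right] at h
    push_cast
    linarith

omit [IsAlgClosed k] in
/-- Large multiples of a point make a class effective. -/
theorem Cl.exists_effective (x : Cl m K) (n : ℕ) (hn : 0 < x.euler + n) :
    ∃ l : List (ChartPoint m K),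
      x = (l.map fun p => (Cl.point p)⁻¹).prod * Cl.point (epsPoint m K) ^ n ∧
      x.euler + n = (1 : Cl m K).euler + l.length := by
  obtain ⟨D, hD⟩ := Cl.mk_surjective (x * (Cl.point (epsPoint m K) ^ n)⁻¹)
  have he : D.euler = x.euler + n := by
    have h := Cl.euler_mul_point_pow (x * (Cl.point (epsPoint m K) ^ n)⁻¹) (epsPoint m K) n
    rw [inv_mul_cancel_right, ← hD, Cl.euler_mk] at h
    linarith
  have h0 : 0 < Module.finrank K D.H0 := by
    unfold LineData.euler at he
    lia
  obtain ⟨l, hl, hlen⟩ := LineData.exists_points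
    (D.euler - (LineData.trivialData (m := m) (A := K)).euler).toNat D h0
    (by linarith [Int.self_le_toNat (D.euler - (LineData.trivialData (m := m) (A := K)).euler)])
  exact ⟨l, by rw [← hl, hD, inv_mul_cancel_right], he ▸ hlen⟩

omit [IsAlgClosed k] in
/-- The Euler characteristic is additive up to that of the unit class. -/
theorem Cl.euler_mul (x y : Cl m K) :
    (x * y).euler = x.euler + y.euler - (1 : Cl m K).euler := by
  obtain ⟨l, hl, hlen⟩ := x.exists_effective (1 - x.euler).toNat (by lia)
  generalize (1 - x.euler).toNat = n at hl hlen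
  rw [mul_comm x y]
  conv_lhs => rw [hl, ← mul_assoc, Cl.euler_mul_point_pow, Cl.euler_mul_point_inv_prod]
  linarith

omit [IsAlgClosed k] in
/-- A class of degree zero is a difference of `genus` points and as many marked points. -/
theorem Cl.exists_points_of_euler (x : Cl m K) (hx : x.euler = (1 : Cl m K).euler) :
    ∃ p : Fin m.genus → ChartPoint m K,
      x = (∏ i, (Cl.point (p i))⁻¹) * Cl.point (epsPoint m K) ^ m.genus := by
  have h1 := Cl.euler_one (m := m) K
  obtain ⟨l, hl, hlen⟩ := x.exists_effective m.genus (by lia)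
  have hlg : l.length = m.genus := by lia
  refine ⟨fun i => l.get (i.cast hlg.symm), hl.trans ?_⟩
  congr 1
  rw [← Fin.prod_univ_fun_getElem]
  exact Fintype.prod_equiv (finCongr hlg) _ _ fun i => rfl

/-- Twisting by a rational class of degree zero makes finitely many bundles acyclic at once. -/
theorem Cl.exists_twist_acyclic {ι : Type} [Finite ι] (x : ι → Cl m K)
    (hx : ∀ i, (x i).euler = 0) :
    ∃ a : Cl m k, a.euler = (1 : Cl m k).euler ∧ ∀ i, (x i * Cl.const K a).Acyclic := by
  classical
  have := Fintype.ofFinite ι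
  rcases isEmpty_or_nonempty ι with hι | ⟨⟨i₀⟩⟩
  · exact ⟨1, rfl, fun i => (IsEmpty.false i).elim⟩
  have hconst : ∀ b : Cl m k, (Cl.const K b).euler = b.euler := fun b =>
    Cl.euler_map_field _ b
  have hone : (1 : Cl m K).euler = (1 : Cl m k).euler := by
    rw [← hconst 1, map_one]
  have down : ∀ (N : ℕ) (b : Cl m k), (∀ i, ∃ D : LineData m K, Cl.mk D = x i * Cl.const K b ∧
      Module.finrank K D.H1 = 0 ∧ Module.finrank K D.H0 = N) →
      ∃ a : Cl m k, ∀ i, (x i * Cl.const K a).euler = 0 ∧ (x i * Cl.const K a).Acyclic := by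
    intro N
    induction N with
    | zero =>
      intro b hb
      refine ⟨b, fun i => ?_⟩
      obtain ⟨D, hD, h1, h0⟩ := hb i
      rw [← hD, Cl.euler_mk, Cl.acyclic_mk]
      have := D.finite_H0
      have := D.finite_H1
      refine ⟨by simp [LineData.euler, h0, h1], ?_⟩
      have hs : LinearMap.range D.cechLin = ⊤ :=
        Submodule.Quotient.subsingleton_iff.1 (Module.finrank_zero_iff.1 h1)
      have hk : LinearMap.ker D.cechLin = ⊥ := Submodule.finrank_eq_zero.1 h0
      exact ⟨LinearMap.ker_eq_bot.1 hk, LinearMap.range_eq_top.1 hs⟩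
    | succ N ih =>
      intro b hb
      choose D hD h1 h0 using hb
      have hsec : ∀ i, ∃ s : (D i).H0, ∃ f : m.R0 K, f ≠ 0 ∧
          ∀ z, ∃ r : m.R0 K, f • z = r • s.1.1 := fun i => by
        have := (D i).finite_H0
        have := m.dedekind0 K
        have := m.dedekind1 K
        obtain ⟨s, hs⟩ := Module.finrank_pos_iff_exists_ne_zero.1
          (show 0 < Module.finrank K (D i).H0 by rw [h0 i]; lia)
        refine ⟨s, exists_smul_eq fun hz => hs (Subtype.ext (Prod.ext hz
          (injective_of_span (m.ι1_injective K) (D i).res1 (D i).span1 ?_)))⟩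
        rw [← (LineData.mem_H0 _ _).1 s.2, hz, map_zero]
        exact (map_zero (D i).res1).symm
      choose s f hf hfs using hsec
      have := m.dedekind0 K
      obtain ⟨q, hq⟩ := m.exists_rational_point (K := K)
        (Finset.prod_ne_zero_iff.2 fun i (_ : i ∈ Finset.univ) => hf i)
      refine ih (b * Cl.point (Sum.inl q)) fun i => ?_
      have hnv : ¬ (D i).Vanishes (Sum.inl ((Algebra.ofId k K).comp q)) (s i).1 := by
        intro hv
        let ev := m.ev0 ((Algebra.ofId k K).comp q)
        have hfq : ev (f i) ≠ 0 := fun h =>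
          hq (by
            rw [RingHom.mem_ker, map_prod]
            exact Finset.prod_eq_zero (Finset.mem_univ i) h)
        obtain ⟨χ, hχs, hχ⟩ := exists_fibre (M := (D i).M0) ev
          fun a => ⟨algebraMap K _ a, (m.aev0 _).commutes a⟩
        obtain ⟨z, hz⟩ := hχs 1
        obtain ⟨r, hr⟩ := hfs i z
        refine hfq ?_
        have h := congrArg χ hr
        rw [χ.map_smulₛₗ, χ.map_smulₛₗ, (hχ (s i).1.1).2 hv, hz, smul_zero, smul_eq_mul,
          mul_one] at h
        exact h
      obtain ⟨F, hF, he, -, hle, hdrop, -⟩ :=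
        (D i).finrank_twist_point (Sum.inl ((Algebra.ofId k K).comp q))
      have hd := hdrop ⟨s i, hnv⟩
      refine ⟨F, ?_, ?_, ?_⟩
      · rw [hF, hD, map_mul, ← mul_assoc]
        congr 1
        exact (Cl.map_point0 _ q).symm
      · unfold LineData.euler at he
        have := h0 i
        have := h1 i
        lia
      · have := h0 i
        lia
  choose D hD using fun i => Cl.mk_surjective (x i)
  choose n₀ hn₀ using fun i => (D i).exists_reglue_surjective
  let n := ∑ i, n₀ i
  let c : Cl m k := Cl.mk (LineData.twistData n)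
  have hstart : ∀ i, ∃ E : LineData m K, Cl.mk E = x i * Cl.const K c ∧
      Module.finrank K E.H1 = 0 ∧ (Module.finrank K E.H0 : ℤ) = c.euler - (1 : Cl m k).euler := by
    intro i
    have hE : Cl.mk ((D i).reglue n) = x i * Cl.const K c := by
      rw [Cl.const, Cl.map_mk _ (LineData.isBaseChangeData_twistData _ n), ← hD i,
        Cl.mk_mul ((D i).isProduct_reglue n)]
    have hs := hn₀ i n (Finset.single_le_sum (fun j _ => Nat.zero_le (n₀ j)) (Finset.mem_univ i))
    have : Subsingleton ((D i).reglue n).H1 :=
      Submodule.Quotient.subsingleton_iff.2 (LinearMap.range_eq_top.2 hs)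
    have h1 : Module.finrank K ((D i).reglue n).H1 = 0 := Module.finrank_zero_of_subsingleton
    refine ⟨_, hE, h1, ?_⟩
    have h := Cl.euler_mk ((D i).reglue n)
    rw [hE, Cl.euler_mul, hx, hconst, hone] at h
    unfold LineData.euler at h
    rw [h1, Nat.cast_zero, sub_zero, zero_add] at h
    exact h.symm
  obtain ⟨a, ha⟩ := down (c.euler - (1 : Cl m k).euler).toNat c fun i => by
    obtain ⟨E, hE, h1, h0⟩ := hstart i
    exact ⟨E, hE, h1, by lia⟩
  refine ⟨a, ?_, fun i => (ha i).2⟩
  have h := (ha i₀).1
  rw [Cl.euler_mul, hx, hconst, hone] at h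
  linarith

omit [IsAlgClosed k] in
/-- There is a rational class with vanishing Euler characteristic. -/
theorem Cl.exists_euler_eq_zero : ∃ a : Cl m k, a.euler = 0 := by
  refine ⟨Cl.point (epsPoint m k) ^ (1 - (m.genus : ℤ)), ?_⟩
  have h : ∀ z : ℤ, (Cl.point (epsPoint m k) ^ z).euler = (1 : Cl m k).euler - z := by
    intro z
    induction z using Int.induction_on with
    | zero => simp
    | succ z ih =>
      rw [zpow_add_one, Cl.euler_mul_point, ih]
      ring
    | pred z ih =>
      have h := Cl.euler_mul_point (Cl.point (epsPoint m k) ^ (-(z : ℤ) - 1)) (epsPoint m k)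
      rw [← zpow_add_one, sub_add_cancel, ih] at h
      linarith
  rw [h, Cl.euler_one, sub_self]

end Fermat.Agent.Jac
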