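import Fermat.Agent.Jac.FieldTheory

/-!
# Group functors on algebras, and the functor of rigidified classes of degree zero

`AlgFun.IsSheaf` and `AlgFun.Chart` are the hypotheses of representability; `picZeroFun` is the
functor of interest.
-/

set_option autoImplicit false

universe u

open scoped TensorProduct

namespace Fermat.Agent.Jac

/-- A functor from `k`-algebras to commutative groups. -/
structure AlgFun (k : Type u) [Field k] : Type (u + 2) where
  obj : ∀ (A : Type u) [CommRing A] [Algebra k A], Type (u + 1)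
  [group : ∀ (A : Type u) [CommRing A] [Algebra k A], CommGroup (obj A)]
  map : ∀ {A A' : Type u} [CommRing A] [Algebra k A] [CommRing A'] [Algebra k A'],
    (A →ₐ[k] A') → (obj A →* obj A')
  map_id : ∀ {A : Type u} [CommRing A] [Algebra k A] (x : obj A), map (AlgHom.id k A) x = x
  map_map : ∀ {A A' A'' : Type u} [CommRing A] [Algebra k A] [CommRing A'] [Algebra k A']
    [CommRing A''] [Algebra k A''] (φ : A →ₐ[k] A') (ψ : A' →ₐ[k] A'') (x : obj A),
    map ψ (map φ x) = map (ψ.comp φ) x

attribute [instance] AlgFun.group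

variable {k : Type u} [Field k]

/-- Restriction to a basic open. -/
noncomputable def AlgFun.res (F : AlgFun k) {A : Type u} [CommRing A] [Algebra k A] (f : A) :
    F.obj A →* F.obj (Localization.Away f) :=
  F.map (IsScalarTower.toAlgHom k A (Localization.Away f))

/-- Descent along finite covers by basic opens. -/
structure AlgFun.IsSheaf (F : AlgFun k) : Prop where
  ext : ∀ (A : Type u) [CommRing A] [Algebra k A] (s : Finset A),
    Ideal.span (s : Set A) = ⊤ → ∀ x y : F.obj A, (∀ f ∈ s, F.res f x = F.res f y) → x = y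
  glue : ∀ (A : Type u) [CommRing A] [Algebra k A] (s : Finset A),
    Ideal.span (s : Set A) = ⊤ → ∀ x : ∀ f : s, F.obj (Localization.Away (f : A)),
    (∀ (f g : s) (B : Type u) [CommRing B] [Algebra k B]
      (φ : Localization.Away (f : A) →ₐ[k] B) (ψ : Localization.Away (g : A) →ₐ[k] B),
      φ.comp (IsScalarTower.toAlgHom k A _) = ψ.comp (IsScalarTower.toAlgHom k A _) →
      F.map φ (x f) = F.map ψ (x g)) →
    ∃ y : F.obj A, ∀ f : s, F.res (f : A) y = x f

/-- An open subfunctor represented by an algebra whose rational translates cover. -/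
structure AlgFun.Chart (F : AlgFun k) where
  mem : ∀ (A : Type u) [CommRing A] [Algebra k A], F.obj A → Prop
  mem_map : ∀ {A A' : Type u} [CommRing A] [Algebra k A] [CommRing A'] [Algebra k A']
    (φ : A →ₐ[k] A') (x : F.obj A), mem A x → mem A' (F.map φ x)
  mem_of_fibres : ∀ (A : Type u) [CommRing A] [Algebra k A] (x : F.obj A),
    (∀ (K : Type u) [Field K] [IsAlgClosed K] [Algebra k K] (φ : A →ₐ[k] K),
      mem K (F.map φ x)) → mem A x
  mem_away : ∀ (A : Type u) [CommRing A] [Algebra k A] (x : F.obj A)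
    (K : Type u) [Field K] [IsAlgClosed K] [Algebra k K] (φ : A →ₐ[k] K),
    mem K (F.map φ x) → ∃ f : A, φ f ≠ 0 ∧ mem (Localization.Away f) (F.res f x)
  Q : Type u
  [commRing : CommRing Q]
  [algebra : Algebra k Q]
  smooth : Algebra.Smooth k Q
  univ : F.obj Q
  univ_mem : mem Q univ
  existsUnique : ∀ (A : Type u) [CommRing A] [Algebra k A] (x : F.obj A), mem A x →
    ∃! φ : Q →ₐ[k] A, F.map φ univ = x
  cover : ∀ (K : Type u) [Field K] [IsAlgClosed K] [Algebra k K] (x : F.obj K),
    ∃ a : F.obj k, mem K (x * F.map (Algebra.ofId k K) a)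

attribute [instance] AlgFun.Chart.commRing AlgFun.Chart.algebra

variable (m : CurveModel k)

theorem Cl.degZero_one {A : Type u} [CommRing A] [Algebra k A] : (1 : Cl m A).DegZero :=
  fun K _ _ _ φ => by rw [map_one]


theorem Cl.DegZero.map {A A' : Type u} [CommRing A] [Algebra k A] [CommRing A'] [Algebra k A']
    (ψ : A →ₐ[k] A') {x : Cl m A} (hx : x.DegZero) : (Cl.map ψ x).DegZero :=
  fun K _ _ _ φ => by rw [Cl.map_map]; exact hx K (φ.comp ψ)

theorem Cl.DegZero.mul {A : Type u} [CommRing A] [Algebra k A] {x y : Cl m A}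
    (hx : x.DegZero) (hy : y.DegZero) : (x * y).DegZero :=
  fun K _ _ _ φ => by rw [map_mul, Cl.euler_mul, hx K φ, hy K φ]; ring

theorem Cl.DegZero.inv {A : Type u} [CommRing A] [Algebra k A] {x : Cl m A}
    (hx : x.DegZero) : x⁻¹.DegZero := fun K _ _ _ φ => by
  have h := Cl.euler_mul (Cl.map φ x) (Cl.map φ x)⁻¹
  rw [mul_inv_cancel, hx K φ] at h
  rw [map_inv]
  linarith

/-- Rigidified classes of degree zero. -/
def picZero (A : Type u) [CommRing A] [Algebra k A] : Subgroup (Cl m A) where
  carrier := {x | x.RigTriv ∧ x.DegZero}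
  mul_mem' hx hy := ⟨Cl.rigTriv_mul hx.1 hy.1, hx.2.mul m hy.2⟩
  one_mem' := ⟨Cl.rigTriv_one, Cl.degZero_one m⟩
  inv_mem' hx := ⟨Cl.rigTriv_inv hx.1, hx.2.inv m⟩

/-- The functor of rigidified classes of degree zero. -/
noncomputable abbrev picZeroFun : AlgFun k where
  obj A _ _ := picZero m A
  map {A A'} _ _ _ _ φ :=
    ((Cl.map φ).comp (picZero m A).subtype).codRestrict (picZero m A')
      fun x => ⟨x.2.1.map φ, x.2.2.map m φ⟩
  map_id _ := Subtype.ext (Cl.map_id _)
  map_map φ ψ _ := Subtype.ext (Cl.map_map φ ψ _)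

end Fermat.Agent.Jac
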