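import Mathlib

/-!
# Two-chart model of a curve over an algebraically closed field

A curve is described by two affine charts `Spec B0`, `Spec B1` lying over the two standard
charts of the projective line, glued along `Spec B01`.
-/

set_option autoImplicit false

universe u

open scoped TensorProduct

namespace Fermat.Agent.Jac

/-- A two-chart model of a smooth proper curve over `k`, with a marked point in the second chart
over `s = 0`. The conditions at a field extension hold for every algebraically closed `K`. -/
structure CurveModel (k : Type u) [Field k] where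
  B0 : Type u
  B1 : Type u
  B01 : Type u
  [commRing0 : CommRing B0]
  [commRing1 : CommRing B1]
  [commRing01 : CommRing B01]
  [algebra0 : Algebra k B0]
  [algebra1 : Algebra k B1]
  [algebra01 : Algebra k B01]
  t : B0
  s : B1
  i0 : B0 →ₐ[k] B01
  i1 : B1 →ₐ[k] B01
  t_mul_s : i0 t * i1 s = 1
  i0_injective : Function.Injective i0
  i1_injective : Function.Injective i1
  surj0 : ∀ x : B01, ∃ (n : ℕ) (y : B0), i0 y = i0 t ^ n * x
  surj1 : ∀ x : B01, ∃ (n : ℕ) (y : B1), i1 y = i1 s ^ n * x
  finite0 : (Polynomial.aeval (R := k) t).toRingHom.Finite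
  finite1 : (Polynomial.aeval (R := k) s).toRingHom.Finite
  transcendental0 : Transcendental k t
  transcendental1 : Transcendental k s
  domain01 : ∀ (K : Type u) [Field K] [IsAlgClosed K] [Algebra k K], IsDomain (K ⊗[k] B01)
  dedekind0 : ∀ (K : Type u) [Field K] [IsAlgClosed K] [Algebra k K], IsDedekindDomain (K ⊗[k] B0)
  dedekind1 : ∀ (K : Type u) [Field K] [IsAlgClosed K] [Algebra k K], IsDedekindDomain (K ⊗[k] B1)
  global_const : ∀ (b0 : B0) (b1 : B1), i0 b0 = i1 b1 → ∃ a : k, b0 = algebraMap k B0 a
  eps : B1 →ₐ[k] k
  eps_s : eps s = 0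

namespace CurveModel

attribute [instance] commRing0 commRing1 commRing01 algebra0 algebra1 algebra01

variable {k : Type u} [Field k] (m : CurveModel k)
variable (A : Type u) [CommRing A] [Algebra k A]

/-- The first chart over `A`. -/
abbrev R0 : Type u := A ⊗[k] m.B0

/-- The second chart over `A`. -/
abbrev R1 : Type u := A ⊗[k] m.B1

/-- The overlap over `A`. -/
abbrev R01 : Type u := A ⊗[k] m.B01

/-- Restriction from the first chart to the overlap. -/
noncomputable def ι0 : m.R0 A →+* m.R01 A :=
  (Algebra.TensorProduct.map (AlgHom.id A A) m.i0).toRingHom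

/-- Restriction from the second chart to the overlap. -/
noncomputable def ι1 : m.R1 A →+* m.R01 A :=
  (Algebra.TensorProduct.map (AlgHom.id A A) m.i1).toRingHom

/-- The function `t` on the first chart. -/
noncomputable def tA : m.R0 A := (1 : A) ⊗ₜ m.t

/-- The function `s` on the second chart. -/
noncomputable def sA : m.R1 A := (1 : A) ⊗ₜ m.s

/-- The marked section. -/
noncomputable def epsA : m.R1 A →+* A :=
  (Algebra.TensorProduct.lift (AlgHom.id A A) ((Algebra.ofId k A).comp m.eps)
    fun _ _ => Commute.all _ _).toRingHom

variable {A} {A' : Type u} [CommRing A'] [Algebra k A']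

/-- Base change of the first chart. -/
noncomputable def map0 (φ : A →ₐ[k] A') : m.R0 A →+* m.R0 A' :=
  (Algebra.TensorProduct.map φ (AlgHom.id k m.B0)).toRingHom

/-- Base change of the second chart. -/
noncomputable def map1 (φ : A →ₐ[k] A') : m.R1 A →+* m.R1 A' :=
  (Algebra.TensorProduct.map φ (AlgHom.id k m.B1)).toRingHom

/-- Base change of the overlap. -/
noncomputable def map01 (φ : A →ₐ[k] A') : m.R01 A →+* m.R01 A' :=
  (Algebra.TensorProduct.map φ (AlgHom.id k m.B01)).toRingHom

/-- The evaluation at a point of the first chart. -/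
noncomputable def ev0 (φ : m.B0 →ₐ[k] A) : m.R0 A →+* A :=
  (Algebra.TensorProduct.lift (AlgHom.id A A) φ fun _ _ => Commute.all _ _).toRingHom

/-- The evaluation at a point of the second chart. -/
noncomputable def ev1 (φ : m.B1 →ₐ[k] A) : m.R1 A →+* A :=
  (Algebra.TensorProduct.lift (AlgHom.id A A) φ fun _ _ => Commute.all _ _).toRingHom

end CurveModel

end Fermat.Agent.Jac
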