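import Fermat.Prelude.Def_AlgebraicGeometry_RelativePicardFunctor
import Fermat.Agent.Jac.Model
import Fermat.Agent.Jac.W1.Charts

/-!
# Every curve has a two-chart model

In `exists_curveModel` the two charts are the regular loci of a nonconstant rational function and
of its inverse.
-/

set_option autoImplicit false

universe u

open CategoryTheory CategoryTheory.Limits AlgebraicGeometry NeronModelInfra
open scoped TensorProduct

namespace Fermat.Agent.Jac

/-- Identification of a curve with a two-chart model. -/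
structure CurveModel.Geo {k : Type u} [Field k] (m : CurveModel k) {C : Scheme.{u}}
    (c : C ⟶ Spec (CommRingCat.of k))
    (ε : SchemeHomOver (𝟙 (Spec (CommRingCat.of k))) c) where
  u0 : Spec (CommRingCat.of m.B0) ⟶ C
  u1 : Spec (CommRingCat.of m.B1) ⟶ C
  isOpenImmersion0 : IsOpenImmersion u0
  isOpenImmersion1 : IsOpenImmersion u1
  u0_over : u0 ≫ c = Spec.map (CommRingCat.ofHom (algebraMap k m.B0))
  u1_over : u1 ≫ c = Spec.map (CommRingCat.ofHom (algebraMap k m.B1))
  isPullback : IsPullback (Spec.map (CommRingCat.ofHom m.i0.toRingHom))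
    (Spec.map (CommRingCat.ofHom m.i1.toRingHom)) u0 u1
  range_union : Set.range u0.base ∪ Set.range u1.base = Set.univ
  eps_eq : Spec.map (CommRingCat.ofHom m.eps.toRingHom) ≫ u1 = ε.1

variable {k : Type u} [Field k] [IsAlgClosed k] {C : Scheme.{u}}
  (c : C ⟶ Spec (CommRingCat.of k)) [IsProper c] [SmoothOfRelativeDimension 1 c] [IsIntegral C]

omit [IsAlgClosed k] in
/-- Restriction between two opens, as a map of algebras. -/
noncomputable def resAlg {U W : C.Opens} (h : W ≤ U) :
    letI := (W1.kHom c U).toAlgebra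
    letI := (W1.kHom c W).toAlgebra
    Γ(C, U) →ₐ[k] Γ(C, W) :=
  letI := (W1.kHom c U).toAlgebra
  letI := (W1.kHom c W).toAlgebra
  { (C.presheaf.map (homOfLE h).op).hom with
    commutes' := fun a => W1.kHom_res c h a }

/-- **A smooth proper integral curve over an algebraically closed field has a two-chart model**,
with the given point marked. -/
theorem exists_curveModel (ε : SchemeHomOver (𝟙 (Spec (CommRingCat.of k))) c) :
    ∃ m : CurveModel k, Nonempty (m.Geo c ε) := by
  have : Smooth c := SmoothOfRelativeDimension.smooth 1 c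
  let e : C := ε.1 (IsLocalRing.closedPoint k)
  have hec : IsClosed ({e} : Set C) := (pointEquivClosedPoint c ⟨ε.1, ε.2⟩).2
  have := W1.isDVR_stalk c hec
  obtain ⟨ϖ, hϖ⟩ := IsDiscreteValuationRing.exists_irreducible (C.presheaf.stalk e)
  set π : C.functionField := algebraMap (C.presheaf.stalk e) C.functionField ϖ with hπdef
  have hπ0 : π ≠ 0 :=
    (map_ne_zero_iff _ (IsFractionRing.injective (C.presheaf.stalk e) C.functionField)).mpr
      hϖ.ne_zero
  have hrange : π ∉ Set.range (W1.kToK c) := by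
    rintro ⟨a, ha⟩
    obtain ⟨V, -, heV⟩ := W1.exists_affine_mem e
    have := W1.nonempty_opens heV
    have hϖa : C.presheaf.germ V e heV (W1.kHom c V a) = ϖ := by
      apply IsFractionRing.injective (C.presheaf.stalk e) C.functionField
      rw [Scheme.algebraMap_germ_eq_germToFunctionField, W1.germ_kHom, ha]
    rcases eq_or_ne a 0 with h0 | h0
    · exact hπ0 (by rw [← ha, h0, map_zero])
    · exact hϖ.not_isUnit (hϖa ▸ ((h0.isUnit.map (W1.kHom c V)).map
        (C.presheaf.germ V e heV).hom))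
  have hrange' : π⁻¹ ∉ Set.range (W1.kToK c) := fun ⟨a, ha⟩ =>
    hrange ⟨a⁻¹, by rw [map_inv₀, ha, inv_inv]⟩
  have hf1 := W1.eval₂_ne_zero_of_notMem_range (W1.kToK c) hrange
  have hf0 := W1.eval₂_ne_zero_of_notMem_range (W1.kToK c) hrange'
  let U0 := W1.regOpen π⁻¹
  let U1 := W1.regOpen π
  let W := U0 ⊓ U1
  have hU0 : IsAffineOpen U0 := W1.isAffineOpen_regOpen c _ hf0
  have hU1 : IsAffineOpen U1 := W1.isAffineOpen_regOpen c _ hf1
  have hW0 : W = C.basicOpen (W1.regSection π⁻¹) := by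
    rw [W1.basicOpen_regSection _ (inv_ne_zero hπ0), inv_inv]
  have hW1 : W = C.basicOpen (W1.regSection π) := by
    rw [W1.basicOpen_regSection _ hπ0]; exact inf_comm _ _
  have hW : IsAffineOpen W := hW0 ▸ hU0.basicOpen _
  have : Nonempty W :=
    ⟨⟨_, W1.mem_regOpen_generic π⁻¹, W1.mem_regOpen_generic π⟩⟩
  have hWU0 : W ≤ U0 := inf_le_left
  have hWU1 : W ≤ U1 := inf_le_right
  let := (W1.kHom c U0).toAlgebra
  let := (W1.kHom c U1).toAlgebra
  let := (W1.kHom c W).toAlgebra
  have heU : e ∈ U1 := ⟨ϖ, rfl⟩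
  have hple : (⊤ : (Spec (CommRingCat.of k)).Opens) ≤ ε.1 ⁻¹ᵁ U1 := by
    intro x _
    obtain rfl : x = IsLocalRing.closedPoint k := Subsingleton.elim _ _
    exact heU
  let epsHom : Γ(C, U1) →+* k :=
    (ε.1.appLE U1 ⊤ hple ≫ (Scheme.ΓSpecIso (CommRingCat.of k)).hom).hom
  have hcomm : ∀ a : k, epsHom (W1.kHom c U1 a) = a := by
    intro a
    have h : (Scheme.ΓSpecIso (CommRingCat.of k)).inv ≫ c.appLE ⊤ U1 (W1.le_preimage_top c U1) ≫
        ε.1.appLE U1 ⊤ hple ≫ (Scheme.ΓSpecIso (CommRingCat.of k)).hom = 𝟙 _ := by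
      rw [← Category.assoc (c.appLE _ _ _), Scheme.Hom.appLE_comp_appLE,
        W1.appLE_congr_hom ε.2 _ (by simp)]
      simp [Scheme.Hom.appLE]
    exact congr($h a)
  let eps : Γ(C, U1) →ₐ[k] k := { epsHom with commutes' := hcomm }
  have hepss : eps (W1.regSection π) = 0 := by
    by_contra hne
    have hu : IsUnit (ε.1.appLE U1 ⊤ hple (W1.regSection π)) := by
      have := (isUnit_iff_ne_zero.mpr hne).map
        (Scheme.ΓSpecIso (CommRingCat.of k)).inv.hom
      convert this using 1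
      exact (congr($((Scheme.ΓSpecIso (CommRingCat.of k)).hom_inv_id) _)).symm
    have hmem : IsLocalRing.closedPoint k ∈
        (Spec (CommRingCat.of k)).basicOpen (ε.1.appLE U1 ⊤ hple (W1.regSection π)) := by
      rw [Scheme.basicOpen_of_isUnit _ hu]; trivial
    rw [Scheme.basicOpen_appLE] at hmem
    have hu' := (Scheme.mem_basicOpen C _ e heU).mp hmem.2
    apply hϖ.not_isUnit
    convert hu'
    apply IsFractionRing.injective (C.presheaf.stalk e) C.functionField
    rw [Scheme.algebraMap_germ_eq_germToFunctionField, W1.germ_regSection]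
  have hgerm : ∀ (f : C.functionField) (p : Polynomial k), p.eval₂ (W1.kToK c) f ≠ 0 →
      W1.polyHom c f p ≠ 0 := fun f p hp h0 => hp (by rw [← W1.germ_polyHom, h0, map_zero])
  refine ⟨{
    B0 := Γ(C, U0)
    B1 := Γ(C, U1)
    B01 := Γ(C, W)
    t := W1.regSection π⁻¹
    s := W1.regSection π
    i0 := resAlg c hWU0
    i1 := resAlg c hWU1
    t_mul_s := ?_
    i0_injective := map_injective_of_isIntegral C (homOfLE hWU0)
    i1_injective := map_injective_of_isIntegral C (homOfLE hWU1)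
    surj0 := W1.exists_pow_mul_res hU0 _ hW0 hWU0
    surj1 := W1.exists_pow_mul_res hU1 _ hW1 hWU1
    finite0 := W1.finite_polyHom c _ hf0
    finite1 := W1.finite_polyHom c _ hf1
    transcendental0 := ?_
    transcendental1 := ?_
    domain01 := fun K _ _ _ => W1.isDomain_tensor K Γ(C, W)
    dedekind0 := fun K _ _ _ =>
      W1.isDedekindDomain_baseChange c hU0 Γ(C, U0) (RingEquiv.refl _) (fun _ => rfl) K
    dedekind1 := fun K _ _ _ =>
      W1.isDedekindDomain_baseChange c hU1 Γ(C, U1) (RingEquiv.refl _) (fun _ => rfl) K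
    global_const := ?_
    eps := eps
    eps_s := hepss }, ⟨{
    u0 := hU0.fromSpec
    u1 := hU1.fromSpec
    isOpenImmersion0 := inferInstance
    isOpenImmersion1 := inferInstance
    u0_over := W1.fromSpec_over c hU0
    u1_over := W1.fromSpec_over c hU1
    isPullback := W1.isPullback_charts hU0 hU1 hW rfl
    range_union := ?_
    eps_eq := ?_ }⟩⟩
  · apply C.germToFunctionField_injective W
    rw [map_mul, map_one]
    exact (congrArg₂ (· * ·)
      ((W1.germ_res' hWU0 _).trans (W1.germ_regSection π⁻¹))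
      ((W1.germ_res' hWU1 _).trans (W1.germ_regSection π))).trans (inv_mul_cancel₀ hπ0)
  · rw [transcendental_iff]
    intro p hp
    by_contra hne
    exact hgerm π⁻¹ p (fun h => hne (hf0 p h)) hp
  · rw [transcendental_iff]
    intro p hp
    by_contra hne
    exact hgerm π p (fun h => hne (hf1 p h)) hp
  · intro b0 b1 h
    have hcover : U0 ⊔ U1 = ⊤ := top_le_iff.mp fun x _ =>
      (W1.mem_regOpen_or_inv c π x).elim Or.inr Or.inl
    obtain ⟨g, hg⟩ := W1.exists_glue hcover b0 b1 h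
    obtain ⟨a, rfl⟩ := (W1.kHom_top_bijective c).2 g
    exact ⟨a, hg.symm.trans (W1.kHom_res c le_top a)⟩
  · rw [hU0.range_fromSpec, hU1.range_fromSpec]
    exact Set.eq_univ_iff_forall.mpr fun x => (W1.mem_regOpen_or_inv c π x).elim Or.inr Or.inl
  · have h := IsAffineOpen.SpecMap_appLE_fromSpec ε.1 hU1 (isAffineOpen_top _) hple
    rw [IsAffineOpen.fromSpec_top, Scheme.isoSpec_Spec_inv] at h
    show Spec.map (ε.1.appLE U1 ⊤ hple ≫ (Scheme.ΓSpecIso (CommRingCat.of k)).hom) ≫
      hU1.fromSpec = ε.1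
    rw [Spec.map_comp, Category.assoc, h, ← Category.assoc, ← Spec.map_comp, Iso.inv_hom_id,
      Spec.map_id, Category.id_comp]

theorem isIntegral_pullback_Spec {K : Type u} [Field K] (R : CommRingCat.{u}) [IsDomain R]
    (g : Spec R ⟶ Spec (CommRingCat.of k)) (y : Spec (CommRingCat.of K) ⟶ Spec (CommRingCat.of k)) :
    IsIntegral (pullback g y) := by
  obtain ⟨φ, rfl⟩ := Spec.map_surjective g
  obtain ⟨ψ, rfl⟩ := Spec.map_surjective y
  let := φ.hom.toAlgebra
  let := ψ.hom.toAlgebra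
  have : IsDomain (R ⊗[k] K) := W1.isDomain_tensor R K
  have : IsIntegral (Spec (CommRingCat.of (R ⊗[k] K))) := inferInstance
  exact IsIntegral.of_isIso (pullbackSpecIso k R K).inv

omit [IsProper c] [SmoothOfRelativeDimension 1 c] in
/-- An integral curve over an algebraically closed field is geometrically integral. -/
theorem geometricallyIntegral_curve : GeometricallyIntegral c := by
  refine ⟨fun K _ y Z fst snd hP => ?_⟩
  choose V hV hxV using fun x : C => W1.exists_affine_mem x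
  let 𝒱 := C.openCoverOfIsOpenCover V
    (TopologicalSpace.IsOpenCover.mk (top_le_iff.mp fun x _ =>
      TopologicalSpace.Opens.mem_iSup.mpr ⟨x, hxV x⟩))
  let 𝒰 := 𝒱.pullback₁ fst
  have : ∀ i, IsIntegral (𝒰.X i) := fun i => by
    have : Nonempty (V i) := ⟨⟨i, hxV i⟩⟩
    have : IsAffine (𝒱.X i) := hV i
    have : IsIntegral (𝒱.X i) := inferInstanceAs (IsIntegral (V i).toScheme)
    have : IsIntegral (Spec Γ(𝒱.X i, ⊤)) := IsIntegral.of_isIso (𝒱.X i).isoSpec.hom
    have := isIntegral_pullback_Spec (K := K) Γ(𝒱.X i, ⊤)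
      ((𝒱.X i).isoSpec.inv ≫ 𝒱.f i ≫ c) y
    have : IsIntegral (pullback (𝒱.f i ≫ c) y) :=
      IsIntegral.of_isIso (pullback.map ((𝒱.X i).isoSpec.inv ≫ 𝒱.f i ≫ c) y
        (𝒱.f i ≫ c) y (𝒱.X i).isoSpec.inv (𝟙 _) (𝟙 _) (by simp) (by simp))
    have hsq := (IsPullback.of_hasPullback fst (𝒱.f i)).flip.paste_vert hP
    exact IsIntegral.of_isIso hsq.isoPullback.inv
  have : Surjective y := inferInstance
  have : Surjective fst := MorphismProperty.of_isPullback hP.flip ‹_›
  rw [isIntegral_iff_irreducibleSpace_and_isReduced]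
  refine ⟨?_, IsReduced.of_openCover (𝒰 := 𝒰)⟩
  have hirr : ∀ i, IsPreirreducible (Set.range (𝒰.f i).base) := fun i => by
    rw [← Set.image_univ]
    exact (PreirreducibleSpace.isPreirreducible_univ (X := 𝒰.X i)).image _
      (𝒰.f i).continuous.continuousOn
  have hmeet : ∀ i j, (Set.range (𝒰.f i).base ∩ Set.range (𝒰.f j).base).Nonempty := by
    intro i j
    obtain ⟨x, hxi, hxj⟩ := nonempty_preirreducible_inter
      (𝒱.f i).isOpenEmbedding.isOpen_range (𝒱.f j).isOpenEmbedding.isOpen_range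
      ⟨_, ⟨⟨i, hxV i⟩, rfl⟩⟩ ⟨_, ⟨⟨j, hxV j⟩, rfl⟩⟩
    obtain ⟨z, rfl⟩ := fst.surjective x
    refine ⟨z, ?_, ?_⟩
    · show z ∈ Set.range (pullback.fst fst (𝒱.f i)).base
      rw [IsOpenImmersion.range_pullbackFst]; exact hxi
    · show z ∈ Set.range (pullback.fst fst (𝒱.f j)).base
      rw [IsOpenImmersion.range_pullbackFst]; exact hxj
  have hopen : ∀ i, IsOpen (Set.range (𝒰.f i).base) := fun i => (𝒰.f i).isOpenEmbedding.isOpen_range
  have hne : Nonempty Z := ⟨(fst.surjective (genericPoint C)).choose⟩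
  refine @IrreducibleSpace.mk _ _ ⟨fun A B hA hB ⟨a, _, ha⟩ ⟨b, _, hb⟩ => ?_⟩ hne
  obtain ⟨i, a', rfl⟩ := Scheme.Cover.exists_eq 𝒰 a
  obtain ⟨j, b', rfl⟩ := Scheme.Cover.exists_eq 𝒰 b
  obtain ⟨p, hp⟩ := hirr i A (Set.range (𝒰.f j).base) hA (hopen j) ⟨_, ⟨a', rfl⟩, ha⟩ (hmeet i j)
  obtain ⟨q, hq⟩ := hirr j A B hA hB ⟨p, hp.2.2, hp.2.1⟩ ⟨_, ⟨b', rfl⟩, hb⟩
  exact ⟨q, trivial, hq.2⟩

end Fermat.Agent.Jac
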