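import Fermat.Agent.Jac.AffinePoints
import Fermat.Prelude.Def_AlgebraicGeometry_RelPicardAlgEquivZeroCut

/-!
# Separatedness, properness and connectedness of a representing scheme

`isProper_and_geometricallyConnected` deduces them from the map from the curve whose sums reach
every geometric point.
-/

set_option autoImplicit false

universe u

open CategoryTheory CategoryTheory.Limits AlgebraicGeometry NeronModelInfra
open scoped TensorProduct

namespace Fermat.Agent.Jac

variable {k : Type u} [Field k]

/-- A product of two geometrically integral schemes of finite type over a field. -/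
theorem geometricallyIntegral_prod {X Y : Scheme.{u}} (y : Y ⟶ Spec (CommRingCat.of k))
    (x : X ⟶ Spec (CommRingCat.of k)) [GeometricallyIntegral y] [GeometricallyIntegral x]
    [LocallyOfFiniteType y] :
    GeometricallyIntegral (pullback.fst y x ≫ y) := by
  refine ⟨fun K _ s Z fst snd hZ => ?_⟩
  have : IsLocallyNoetherian (pullback y s) :=
    LocallyOfFiniteType.isLocallyNoetherian (pullback.snd y s)
  have : IsIntegral (pullback y s) :=
    GeometricallyIntegral.isIntegral_of_subsingleton (pullback.snd y s)
  have : IsIntegral (pullback (pullback.fst y x) (pullback.fst y s)) := inferInstance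
  exact AlgebraicGeometry.IsIntegral.of_isIso
    ((pullbackRightPullbackFstIso y s (pullback.fst y x)).hom ≫ hZ.isoPullback.inv)

theorem specTo_self : specTo k k = 𝟙 (Spec (CommRingCat.of k)) := Spec.map_id _

namespace AlgFun.RepScheme

variable {F : AlgFun k} (R : F.RepScheme)

/-- The point of the representing scheme given by a value of the functor. -/
noncomputable def ofVal {A : Type u} [CommRing A] [Algebra k A] (v : F.obj A) :
    SchemeHomOver (specTo k A) R.toBase :=
  (R.pts A).symm v

theorem pts_ofVal {A : Type u} [CommRing A] [Algebra k A] (v : F.obj A) :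
    R.pts A (R.ofVal v) = v :=
  Equiv.apply_symm_apply _ _

theorem ofVal_natural {A A' : Type u} [CommRing A] [Algebra k A] [CommRing A'] [Algebra k A']
    (φ : A →ₐ[k] A') (v : F.obj A) :
    R.ofVal (F.map φ v) = compOver (specMapOver φ) (R.ofVal v) := by
  apply (R.pts A').injective
  rw [pts_ofVal]
  exact ((R.pts_natural A A' φ _).trans (congrArg (F.map φ) (R.pts_ofVal v))).symm

theorem pts_comp {A A' : Type u} [CommRing A] [Algebra k A] [CommRing A'] [Algebra k A']
    (φ : A →ₐ[k] A') (g : SchemeHomOver (specTo k A) R.toBase) :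
    R.pts A' (compOver (specMapOver φ) g) = F.map φ (R.pts A g) :=
  R.pts_natural A A' φ g

theorem compOver_assoc {V W X Z : Scheme.{u}} {v : V ⟶ Spec (CommRingCat.of k)}
    {w : W ⟶ Spec (CommRingCat.of k)} {x : X ⟶ Spec (CommRingCat.of k)}
    {z : Z ⟶ Spec (CommRingCat.of k)} (a : SchemeHomOver v w) (b : SchemeHomOver w x)
    (e : SchemeHomOver x z) : compOver (compOver a b) e = compOver a (compOver b e) :=
  Subtype.ext (Category.assoc _ _ _)

/-- Combine two morphisms into the representing scheme by an operation on values. -/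
theorem exists_binop {T : Scheme.{u}} {t : T ⟶ Spec (CommRingCat.of k)}
    (op : ∀ (A : Type u) [CommRing A] [Algebra k A], F.obj A → F.obj A → F.obj A)
    (hop : ∀ {A A' : Type u} [CommRing A] [Algebra k A] [CommRing A'] [Algebra k A']
      (φ : A →ₐ[k] A') (v w : F.obj A), F.map φ (op A v w) = op A' (F.map φ v) (F.map φ w))
    (g g' : SchemeHomOver t R.toBase) :
    ∃ h : SchemeHomOver t R.toBase, ∀ (A : Type u) [CommRing A] [Algebra k A]
      (a : SchemeHomOver (specTo k A) t),
      R.pts A (compOver a h) = op A (R.pts A (compOver a g)) (R.pts A (compOver a g')) := by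
  obtain ⟨h, hh⟩ := exists_hom_of_natural
    (fun A _ _ a => R.ofVal (op A (R.pts A (compOver a g)) (R.pts A (compOver a g'))))
    (fun A A' _ _ _ _ φ a => by
      rw [compOver_assoc, compOver_assoc, R.pts_comp, R.pts_comp, ← hop, R.ofVal_natural])
  exact ⟨h, fun A _ _ a => by rw [← hh A a, pts_ofVal]⟩

/-- The neutral section. -/
noncomputable def unitSection : SchemeHomOver (𝟙 (Spec (CommRingCat.of k))) R.toBase :=
  ⟨(R.ofVal (1 : F.obj k)).1, (R.ofVal (1 : F.obj k)).2.trans specTo_self⟩

theorem pts_unitSection {A : Type u} [CommRing A] [Algebra k A]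
    (a : SchemeHomOver (specTo k A) (𝟙 (Spec (CommRingCat.of k)))) :
    R.pts A (compOver a R.unitSection) = 1 := by
  obtain ⟨φ, hφ⟩ := exists_specMapOver_eq (k := k) (A := k) (A' := A)
    ⟨a.1, by rw [specTo_self]; exact a.2⟩
  -- comparing the two subtypes by `rfl` would make the kernel unfold `specTo k k = 𝟙`
  have hu : R.unitSection.1 = (R.ofVal (1 : F.obj k)).1 :=
    (congrArg Subtype.val (unitSection.eq_def R)).trans (Subtype.coe_mk _ _)
  have h : compOver a R.unitSection = compOver (specMapOver φ) (R.ofVal (1 : F.obj k)) := by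
    refine Subtype.ext ?_
    change a.1 ≫ R.unitSection.1 = (specMapOver φ).1 ≫ (R.ofVal (1 : F.obj k)).1
    rw [hu, show (specMapOver φ).1 = a.1 from congrArg Subtype.val hφ]
  rw [h, R.pts_comp, R.pts_ofVal, map_one]

/-- A scheme representing a group functor is separated. -/
theorem isSeparated : IsSeparated R.toBase := by
  let f := R.toBase
  let p₁ : SchemeHomOver (pullback.fst f f ≫ f) f := ⟨pullback.fst f f, rfl⟩
  let p₂ : SchemeHomOver (pullback.fst f f ≫ f) f :=
    ⟨pullback.snd f f, pullback.condition.symm⟩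
  obtain ⟨δ, hδ⟩ := R.exists_binop (fun _ _ _ v w => v / w) (fun φ v w => map_div _ v w) p₁ p₂
  have key : ∀ {W : Scheme.{u}} (q : W ⟶ pullback f f),
      q ≫ δ.1 = (q ≫ pullback.fst f f ≫ f) ≫ R.unitSection.1 ↔
        q ≫ pullback.fst f f = q ≫ pullback.snd f f := by
    intro W q
    have loc : ∀ (A : Type u) [CommRing A] [Algebra k A]
        (a : SchemeHomOver (specTo k A) (pullback.fst f f ≫ f)),
        compOver a δ = compOver (⟨a.1 ≫ pullback.fst f f ≫ f, by
            rw [Category.comp_id]; exact a.2⟩ :
              SchemeHomOver (specTo k A) (𝟙 (Spec (CommRingCat.of k)))) R.unitSection ↔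
          compOver a p₁ = compOver a p₂ := by
      intro A _ _ a
      rw [← (R.pts A).injective.eq_iff, hδ A a, R.pts_unitSection, div_eq_one,
        (R.pts A).injective.eq_iff]
    constructor
    · intro h
      refine hom_ext_spec _ _ fun S b => ?_
      obtain ⟨inst, hb⟩ := exists_algebra_specTo (b ≫ q ≫ pullback.fst f f ≫ f)
      have := (loc S ⟨b ≫ q, by rw [hb]; simp only [Category.assoc]⟩).1 (Subtype.ext (by
        change (b ≫ q) ≫ δ.1 = ((b ≫ q) ≫ pullback.fst f f ≫ f) ≫ R.unitSection.1
        rw [Category.assoc, h]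
        simp only [Category.assoc]))
      have h1 : (b ≫ q) ≫ pullback.fst f f = (b ≫ q) ≫ pullback.snd f f :=
        congrArg Subtype.val this
      rwa [Category.assoc, Category.assoc] at h1
    · intro h
      refine hom_ext_spec _ _ fun S b => ?_
      obtain ⟨inst, hb⟩ := exists_algebra_specTo (b ≫ q ≫ pullback.fst f f ≫ f)
      have h1 := congrArg Subtype.val
        ((loc S ⟨b ≫ q, by rw [hb]; simp only [Category.assoc]⟩).2 (Subtype.ext (by
          change (b ≫ q) ≫ pullback.fst f f = (b ≫ q) ≫ pullback.snd f f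
          rw [Category.assoc, h, Category.assoc])))
      change (b ≫ q) ≫ δ.1 = ((b ≫ q) ≫ pullback.fst f f ≫ f) ≫ R.unitSection.1 at h1
      simpa only [Category.assoc] using h1
  have sq : IsPullback (pullback.diagonal f) f δ.1 R.unitSection.1 := by
    have hd : pullback.diagonal f ≫ δ.1 = f ≫ R.unitSection.1 := by
      have := (key (pullback.diagonal f)).2 (by
        rw [pullback.diagonal_fst, pullback.diagonal_snd])
      rwa [pullback.diagonal_fst_assoc] at this
    refine IsPullback.of_isLimit' ⟨hd⟩
      (PullbackCone.IsLimit.mk hd (fun s => s.fst ≫ pullback.fst f f) (fun s => ?_) (fun s => ?_)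
        fun s l hl _ => ?_)
    · have hs : s.fst ≫ δ.1 = s.snd ≫ R.unitSection.1 := s.condition
      have hbase : s.snd = s.fst ≫ pullback.fst f f ≫ f := by
        have h2 := congrArg (· ≫ f) hs
        simp only [Category.assoc] at h2
        rw [δ.2, R.unitSection.2, Category.comp_id] at h2
        exact h2.symm
      rw [hbase] at hs
      have h3 := (key s.fst).1 hs
      apply pullback.hom_ext
      · simp
      · simp [← h3]
    · have hs : s.fst ≫ δ.1 = s.snd ≫ R.unitSection.1 := s.condition
      have h2 := congrArg (· ≫ f) hs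
      simp only [Category.assoc] at h2
      rw [δ.2, R.unitSection.2, Category.comp_id] at h2
      rw [Category.assoc]
      exact h2
    · rw [← hl, Category.assoc, pullback.diagonal_fst, Category.comp_id]
  have : IsClosedImmersion R.unitSection.1 :=
    isClosedImmersion_of_comp_eq_id f R.unitSection.1 R.unitSection.2
  exact ⟨MorphismProperty.of_isPullback sq.flip ‹_›⟩

/-- Iterated products of a family, with the product map to the representing scheme. -/
theorem exists_power_family {X : Scheme.{u}} (x : X ⟶ Spec (CommRingCat.of k)) [IsProper x]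
    [GeometricallyIntegral x] (ψ : SchemeHomOver x R.toBase) (n : ℕ) :
    ∃ (Y : Scheme.{u}) (y : Y ⟶ Spec (CommRingCat.of k)) (_ : IsProper y)
      (_ : GeometricallyIntegral y) (Φ : SchemeHomOver y R.toBase),
      ∀ (K : Type u) [Field K] [Algebra k K] (p : Fin n → SchemeHomOver (specTo k K) x),
        ∃ q : SchemeHomOver (specTo k K) y,
          R.pts K (compOver q Φ) = ∏ i, R.pts K (compOver (p i) ψ) := by
  induction n with
  | zero =>
    refine ⟨Spec (CommRingCat.of k), 𝟙 _, inferInstance,
      RelPicard.geometricallyIntegral_id_Spec k, R.unitSection, fun K _ _ p => ?_⟩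
    exact ⟨⟨specTo k K, Category.comp_id _⟩, by rw [pts_unitSection]; rfl⟩
  | succ n ih =>
    obtain ⟨Y, y, hy, hyi, Φ, hΦ⟩ := ih
    have := hy
    have := hyi
    let a₁ : SchemeHomOver (pullback.fst y x ≫ y) y := ⟨pullback.fst y x, rfl⟩
    let a₂ : SchemeHomOver (pullback.fst y x ≫ y) x :=
      ⟨pullback.snd y x, pullback.condition.symm⟩
    obtain ⟨Φ', hΦ'⟩ := R.exists_binop (fun _ _ _ v w => v * w) (fun φ v w => map_mul _ v w)
      (compOver a₁ Φ) (compOver a₂ ψ)
    refine ⟨pullback y x, pullback.fst y x ≫ y, inferInstance, geometricallyIntegral_prod y x, Φ',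
      fun K _ _ p => ?_⟩
    obtain ⟨q, hq⟩ := hΦ K (fun i => p i.castSucc)
    refine ⟨⟨pullback.lift q.1 (p (Fin.last n)).1 (q.2.trans (p (Fin.last n)).2.symm), by
      rw [pullback.lift_fst_assoc, q.2]⟩, ?_⟩
    rw [hΦ', Fin.prod_univ_castSucc, ← hq]
    congr 2
    · exact Subtype.ext (by
        change pullback.lift _ _ _ ≫ pullback.fst y x ≫ Φ.1 = q.1 ≫ Φ.1
        rw [pullback.lift_fst_assoc])
    · exact Subtype.ext (by
        change pullback.lift _ _ _ ≫ pullback.snd y x ≫ ψ.1 = _
        rw [pullback.lift_snd_assoc]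
        rfl)

/-- With a generating family there is a geometrically integral family meeting every point. -/
theorem exists_integral_family {X : Scheme.{u}}
    (x : X ⟶ Spec (CommRingCat.of k)) [IsProper x] [GeometricallyIntegral x]
    (ψ : SchemeHomOver x R.toBase) (g : ℕ)
    (h : ∀ (K : Type u) [Field K] [IsAlgClosed K] [Algebra k K] (v : F.obj K),
      ∃ p : Fin g → SchemeHomOver (specTo k K) x,
        v = ∏ i, R.pts K ⟨(p i).1 ≫ ψ.1, by rw [Category.assoc, ψ.2, (p i).2]⟩) :
    ∃ (Y : Scheme.{u}) (y : Y ⟶ Spec (CommRingCat.of k)) (_ : IsProper y)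
      (_ : GeometricallyIntegral y) (Φ : SchemeHomOver y R.toBase),
      ∀ (K : Type u) [Field K] [IsAlgClosed K] [Algebra k K]
        (v : SchemeHomOver (specTo k K) R.toBase),
        ∃ q : SchemeHomOver (specTo k K) y, q.1 ≫ Φ.1 = v.1 := by
  obtain ⟨Y, y, hy, hyi, Φ, hΦ⟩ := R.exists_power_family x ψ g
  refine ⟨Y, y, hy, hyi, Φ, fun K _ _ _ v => ?_⟩
  obtain ⟨p, hp⟩ := h K (R.pts K v)
  obtain ⟨q, hq⟩ := hΦ K p
  exact ⟨q, congrArg Subtype.val ((R.pts K).injective (hq.trans hp.symm))⟩

/-- If the values at algebraically closed fields are generated by a proper geometrically integral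
family in boundedly many steps, then the scheme is proper and geometrically connected. -/
theorem isProper_and_geometricallyConnected [Smooth R.toBase] {X : Scheme.{u}}
    (x : X ⟶ Spec (CommRingCat.of k)) [IsProper x] [GeometricallyIntegral x]
    (ψ : SchemeHomOver x R.toBase) (g : ℕ)
    (h : ∀ (K : Type u) [Field K] [IsAlgClosed K] [Algebra k K] (v : F.obj K),
      ∃ p : Fin g → SchemeHomOver (specTo k K) x,
        v = ∏ i, R.pts K ⟨(p i).1 ≫ ψ.1, by rw [Category.assoc, ψ.2, (p i).2]⟩) :
    IsProper R.toBase ∧ GeometricallyConnected R.toBase := by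
  obtain ⟨Y, y, hy, hyi, Φ, hΦ⟩ := R.exists_integral_family x ψ g h
  have := hy
  have := hyi
  have : Surjective Φ.1 := by
    refine ⟨fun j => ?_⟩
    let K := AlgebraicClosure (R.J.residueField j)
    let b : Spec (CommRingCat.of K) ⟶ R.J :=
      Spec.map (CommRingCat.ofHom (algebraMap (R.J.residueField j) K)) ≫
        R.J.fromSpecResidueField j
    obtain ⟨inst, hb⟩ := exists_algebra_specTo (b ≫ R.toBase)
    obtain ⟨q, hq⟩ := hΦ K ⟨b, hb.symm⟩
    obtain ⟨o⟩ := (inferInstance : Nonempty (Spec (CommRingCat.of K)))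
    refine ⟨q.1 o, ?_⟩
    rw [← Scheme.Hom.comp_apply, hq]
    simp only [b, Scheme.Hom.comp_apply]
    exact Scheme.fromSpecResidueField_apply _ _
  have := R.isSeparated
  have : UniversallyClosed (Φ.1 ≫ R.toBase) := by rw [Φ.2]; infer_instance
  have : UniversallyClosed R.toBase := UniversallyClosed.of_comp_surjective Φ.1 R.toBase
  refine ⟨{}, ⟨geometrically_iff_of_isClosedUnderIsomorphisms.mpr fun K _ s => ?_⟩⟩
  have : IsIntegral (pullback y s) :=
    GeometricallyIntegral.isIntegral_of_subsingleton (pullback.snd y s)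
  let π : pullback y s ⟶ pullback R.toBase s :=
    pullback.map y s R.toBase s Φ.1 (𝟙 _) (𝟙 _) (by rw [Category.comp_id, Φ.2]) (by simp)
  have : MorphismProperty.IsStableUnderComposition @Surjective :=
    ⟨fun f g (_ : Surjective f) (_ : Surjective g) => inferInstance⟩
  have : Surjective π :=
    MorphismProperty.pullbackMap (P := @Surjective) (f := y) (g := s) (f' := R.toBase) (g' := s)
      ‹Surjective Φ.1› (inferInstance : Surjective (𝟙 _)) Φ.2.symm (Category.id_comp s).symm
  exact Function.Surjective.connectedSpace π.surjective π.continuous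

end AlgFun.RepScheme

end Fermat.Agent.Jac
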