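import Fermat.Agent.Jac.Assembly
import Fermat.Agent.Jac.RepProps
import Fermat.Agent.Jac.Chart

/-!
# The Jacobian of a curve over an algebraically closed field

`exists_jacobian` represents the relative `Pic⁰` functor by a smooth, proper, geometrically
connected scheme.
-/

set_option autoImplicit false

universe u

open CategoryTheory CategoryTheory.Limits AlgebraicGeometry AlgebraicGeometry.RelPicard
  NeronModelInfra GoodReductionJacobian

namespace Fermat.Agent.Jac

/-- The rational classes of degree zero form a small type. -/
theorem small_picZero {k : Type u} [Field k] [IsAlgClosed k] (m : CurveModel k) :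
    Small.{u} ((picZeroFun m).obj k) := by
  have key : ∀ x : picZero m k, ∃ p : Fin m.genus → ChartPoint m k,
      x.1 = (∏ i, (Cl.point (p i))⁻¹) * Cl.point (epsPoint m k) ^ m.genus := fun x => by
    have h := x.2.2 k (AlgHom.id k k)
    rw [Cl.map_id] at h
    exact Cl.exists_points_of_euler x.1 h
  choose p hp using key
  exact small_of_injective (f := p)
    fun x y h => Subtype.ext ((hp x).trans ((congrArg (fun q : Fin m.genus → ChartPoint m k =>
      (∏ i, (Cl.point (q i))⁻¹) * Cl.point (epsPoint m k) ^ m.genus) h).trans (hp y).symm))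

/-- **The Jacobian**: the relative `Pic⁰` functor of a smooth proper curve over an algebraically
closed field is represented by a smooth, proper, geometrically connected scheme. -/
theorem exists_jacobian (k : Type u) [Field k] [IsAlgClosed k] {C : Scheme.{u}}
    (c : C ⟶ Spec (CommRingCat.of k)) [IsProper c] [SmoothOfRelativeDimension 1 c] [IsIntegral C]
    (ε : SchemeHomOver (𝟙 (Spec (CommRingCat.of k))) c) :
    ∃ D : RelativePic0Designation k c,
      Nonempty (RepresentsRelSubPic c ε (algEquivZeroCut c ε) D) ∧
        Smooth D.toBase ∧ IsProper D.toBase ∧ GeometricallyConnected D.toBase := by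
  have := geometricallyIntegral_curve c
  obtain ⟨m, ⟨G⟩⟩ := exists_curveModel c ε
  obtain ⟨d⟩ := G.exists_dictionary
  obtain ⟨ch⟩ := exists_chart m
  have := small_picZero m
  obtain ⟨R, hR⟩ := exists_repScheme (picZeroFun m) (picZeroFun_isSheaf d) ch
  have := hR
  obtain ⟨ψ, hψ⟩ := exists_abel_map d R
  obtain ⟨hp, hc⟩ := R.isProper_and_geometricallyConnected c ψ m.genus hψ
  obtain ⟨Y, y, hy, hyi, Φ, hΦ⟩ := R.exists_integral_family c ψ m.genus hψ
  have := hy
  have := hyi
  obtain ⟨D, h, hD, hrep⟩ := exists_representsRelSubPic d R y Φ hΦ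
  rcases D with ⟨DP, Db, z, hz⟩
  dsimp only at h hD
  subst h
  rw [eqToHom_refl, Category.id_comp] at hD
  subst hD
  exact ⟨_, hrep, hR, hp, hc⟩

end Fermat.Agent.Jac
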